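import Mathlib
import Fermat.Agent.DS.Wt1.ZSmul
import Fermat.Agent.S23.UNStab
import Fermat.Agent.S24.CuspExp
import Fermat.Agent.DS.C.Defs

/-!
# Program DS, package (C), row C1a : the Fricke family (ANALYTIC side).  DEFINITIONS.
Owner: helper22 (+ helper11).  Namespace `Fermat.Agent.DS`, prefix `dscp`.

* `dscpE w = e(w) / (1 - e(w))²`, `e(w) = exp (2πi w)`; `= (2πi)⁻² π² / sin² (π w)`
  `= (4π²)⁻¹ (d/dw) (π cot π w)`.
* `dscpP w z = ∑_{m ∈ ℤ} E(w + m z) = (2πi)⁻² (℘(w; ℤ + ℤ z) + c(z))`; it is `(4π²)⁻¹ ∂_w Z(w, z)` for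
  the cotangent series `dsw_Z` of `DS/Wt1`.
* `dscpF α β z = P(α z + β, z)` : the Fricke function of the point `α z + β` of `ℂ / (ℤ + ℤ z)`,
  `(α, β) ∈ ℝ² ∖ ℤ²`.  DIFFERENCES `F_v - F_w` are weight two: `(F_v - F_w)(γ z) = j(γ,z)² (F_{vγ} - F_{wγ})(z)`.
* `dscpL M r s τ = F_{r/M, s/M}(M τ)` : the level `M` family in the variable `τ` of the `Γ₀` stack
  (lattice `⟨1, M τ⟩`, point `(r · Mτ + s)/M`); `dscpX M a = dscpL M a 0` (`a : ZMod M`) has the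
  `q`-expansion `dscX M a` of `DS/C/Defs.lean`.
* `dscpS M r s` : the `q`-expansion of `dscpL M r s` at `∞` (a POWER series in `q` with coefficients
  in `ℤ[ζ_M]`, up to the constant term when `M ∣ r`).
-/

set_option autoImplicit false

open UpperHalfPlane hiding I
open Complex
open scoped Real MatrixGroups ModularForm

noncomputable section

namespace Fermat.Agent.DS

/-- `E(w) = e(w) / (1 - e(w))²`, `e(w) = exp (2πi w)`. -/
def dscpE (w : ℂ) : ℂ := exp (2 * π * I * w) / (1 - exp (2 * π * I * w)) ^ 2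

/-- `P(w, z) = ∑_{m ∈ ℤ} E(w + m z)`. -/
def dscpP (w : ℂ) (z : ℍ) : ℂ := ∑' m : ℤ, dscpE (w + m * z)

/-- the Fricke function `F_{α,β}(z) = P(α z + β, z)`. -/
def dscpF (α β : ℝ) (z : ℍ) : ℂ := dscpP ((α : ℂ) * z + β) z

/-- `(α, β) ∉ ℤ²`. -/
def DscpNonInt (α β : ℝ) : Prop := ¬ ((∃ m : ℤ, α = m) ∧ ∃ n : ℤ, β = n)

/-- `τ ↦ M τ` on the upper half plane. -/
def dscpMul (M : ℕ) (τ : ℍ) : ℍ := Fermat.Agent.S23.utGL M 0 1 • τ

/-- the level `M` Fricke family in the variable `τ` : `F_{r/M, s/M}(M τ)`. -/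
def dscpL (M : ℕ) (r s : ℤ) (τ : ℍ) : ℂ := dscpF ((r : ℝ) / M) ((s : ℝ) / M) (dscpMul M τ)

/-- `(r, s) ∉ M ℤ²`. -/
def DscpAdm (M : ℕ) (r s : ℤ) : Prop := ¬ (((r : ZMod M) = 0) ∧ ((s : ZMod M) = 0))

/-- the function with `q`-expansion `X̃_a = dscX M a`. -/
def dscpX (M : ℕ) (a : ZMod M) : ℍ → ℂ := dscpL M (a.val : ℤ) 0

/-- the `n`-th coefficient (`n ≥ 1`) of the `q`-expansion of `dscpL M r s`. -/
def dscpCoeff (M : ℕ) (r s : ℤ) (n : ℕ) : ℂ :=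
  ∑ e ∈ n.divisors,
    ((if ((n / e : ℕ) : ZMod M) = (r : ZMod M) then (e : ℂ) * dsw_zeta M ^ (s * e) else 0) +
      (if ((n / e : ℕ) : ZMod M) = -(r : ZMod M) then (e : ℂ) * dsw_zeta M ^ (-(s * e)) else 0))

/-- the `q`-expansion of `dscpL M r s` at `∞`. -/
def dscpS (M : ℕ) (r s : ℤ) : LaurentSeries ℂ :=
  HahnSeries.ofPowerSeries ℤ ℂ (PowerSeries.mk fun n =>
    if n = 0 then (if (r : ZMod M) = 0 then dscpE ((s : ℂ) / M) else 0) else dscpCoeff M r s n)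

end Fermat.Agent.DS
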