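import Fermat.Agent.DS.C.P.QExp

/-!
# Program DS, package (C), row C1a, leaf Q2 : the expansion at `∞` of the level `M` Fricke family

`dscp_L_hasCuspExp`, `dscp_S_eq_X`, `dscp_X_hasCuspExp`, VERBATIM as in `DS/C/P/Spec.lean`.
Private lemmas are prefixed `dscpl_`.
-/

set_option autoImplicit false

open UpperHalfPlane hiding I
open Complex CongruenceSubgroup Fermat.Agent.S24
open scoped Real MatrixGroups ModularForm Manifold

noncomputable section

namespace Fermat.Agent.DS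

/-- regrouping a double series over `(e, d)`, `e, d ≥ 1`, by the product `k = e d`. -/
theorem dscpl_regroup (g : ℕ → ℕ → ℂ) {S : ℂ}
    (h : HasSum (fun p : ℕ × ℕ => g (p.1 + 1) (p.2 + 1)) S) :
    HasSum (fun k : ℕ => ∑ e ∈ k.divisors, g e (k / e)) S := by
  -- extend by zero
  set G : ℕ × ℕ → ℂ := fun p => if p.1 = 0 ∨ p.2 = 0 then 0 else g p.1 p.2 with hG
  have hinj : Function.Injective (fun p : ℕ × ℕ => (p.1 + 1, p.2 + 1)) := by
    intro p p' hpp
    simp only [Prod.mk.injEq, add_left_inj] at hpp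
    exact Prod.ext hpp.1 hpp.2
  have hG0 : ∀ x ∉ Set.range (fun p : ℕ × ℕ => (p.1 + 1, p.2 + 1)), G x = 0 := by
    intro x hx
    rw [hG]
    simp only
    rw [if_pos]
    by_contra hcon
    rw [not_or] at hcon
    apply hx
    refine ⟨(x.1 - 1, x.2 - 1), ?_⟩
    ext
    · simp only
      omega
    · simp only
      omega
  have hGsum : HasSum G S := by
    rw [← hinj.hasSum_iff hG0]
    have : G ∘ (fun p : ℕ × ℕ => (p.1 + 1, p.2 + 1)) = fun p : ℕ × ℕ => g (p.1 + 1) (p.2 + 1) := by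
      funext p
      simp [hG]
    rw [this]
    exact h
  have hfib := hGsum.tsum_fiberwise (fun p : ℕ × ℕ => p.1 * p.2)
  have hfun : (fun k : ℕ => ∑ e ∈ k.divisors, g e (k / e)) =
      fun c : ℕ => ∑' b : (fun p : ℕ × ℕ => p.1 * p.2) ⁻¹' {c}, G b := by
    funext k
    rcases Nat.eq_zero_or_pos k with hk | hk
    · subst hk
      rw [Nat.divisors_zero, Finset.sum_empty]
      symm
      have : ∀ b : (fun p : ℕ × ℕ => p.1 * p.2) ⁻¹' {0}, G b = 0 := by
        rintro ⟨b, hb⟩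
        simp only [Set.mem_preimage, Set.mem_singleton_iff, mul_eq_zero] at hb
        simp [hG, hb]
      simp only [this, tsum_zero]
    · have hset : (fun p : ℕ × ℕ => p.1 * p.2) ⁻¹' {k} = ↑(k.divisorsAntidiagonal) := by
        ext p
        simp only [Set.mem_preimage, Set.mem_singleton_iff, Finset.mem_coe,
          Nat.mem_divisorsAntidiagonal]
        constructor
        · intro hp
          exact ⟨hp, hk.ne'⟩
        · intro hp
          exact hp.1
      rw [hset, Finset.tsum_subtype' k.divisorsAntidiagonal G]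
      have hcongr : ∑ x ∈ k.divisorsAntidiagonal, G x = ∑ x ∈ k.divisorsAntidiagonal, g x.1 x.2 := by
        refine Finset.sum_congr rfl (fun x hx => ?_)
        rw [Nat.mem_divisorsAntidiagonal] at hx
        have h1 : x.1 ≠ 0 := by
          intro h0
          rw [h0, zero_mul] at hx
          exact hx.2 hx.1.symm
        have h2 : x.2 ≠ 0 := by
          intro h0
          rw [h0, mul_zero] at hx
          exact hx.2 hx.1.symm
        simp [hG, h1, h2]
      rw [hcongr, Nat.sum_divisorsAntidiagonal (f := g)]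
  rw [hfun]
  exact hfib

/-- `e(a/N) = ζ_N^a`. -/
theorem dscpl_exp_torsion (N : ℕ) (a : ℤ) :
    exp (2 * π * I * ((a : ℂ) / N)) = dsw_zeta N ^ a := by
  unfold dsw_zeta
  rw [← Complex.exp_int_mul]
  congr 1
  ring

/-- `M τ` as a complex number. -/
theorem dscpl_coe_mul (M : ℕ) [NeZero M] (τ : ℍ) : ((dscpMul M τ : ℍ) : ℂ) = (M : ℂ) * τ := by
  unfold dscpMul
  rw [Fermat.Agent.S23.coe_utGL_smul (NeZero.ne M) one_ne_zero 0 τ]
  simp

/-- one family of rows of the lattice sum at level `M`, regrouped as a power series in `q`. -/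
theorem dscpl_row (M : ℕ) [NeZero M] (t : ℤ) {ρ : ℕ} (h0 : 0 < ρ) (h1 : ρ ≤ M) (τ : ℍ) :
    HasSum (fun k : ℕ => (∑ e ∈ k.divisors,
        if ((k / e : ℕ) : ZMod M) = (ρ : ZMod M) then (e : ℂ) * dsw_zeta M ^ (t * e) else 0) *
          exp (2 * π * I * τ) ^ k)
      (∑' m : ℕ, dscpE (((m : ℂ) + (((ρ : ℝ) / M : ℝ) : ℂ)) * (dscpMul M τ : ℍ) +
        (((t : ℝ) / M : ℝ) : ℂ))) := by
  have hM0 : 0 < M := Nat.pos_of_ne_zero (NeZero.ne M)
  have hM : (M : ℝ) ≠ 0 := Nat.cast_ne_zero.mpr (NeZero.ne M)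
  have hMC : (M : ℂ) ≠ 0 := Nat.cast_ne_zero.mpr (NeZero.ne M)
  have hδ : 0 < (ρ : ℝ) / M := by positivity
  obtain ⟨hA, -⟩ := dscpq_row ((t : ℝ) / M) hδ (dscpMul M τ)
  set q := exp (2 * π * I * τ) with hq
  set g : ℕ → ℕ → ℂ := fun e d =>
    if ((d : ℕ) : ZMod M) = (ρ : ZMod M) then (e : ℂ) * dsw_zeta M ^ (t * e) * q ^ (e * d) else 0
    with hg
  have hinj : Function.Injective (fun p : ℕ × ℕ => (p.1, p.2 * M + ρ - 1)) := by
    intro p p' hpp
    simp only [Prod.mk.injEq] at hpp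
    refine Prod.ext hpp.1 ?_
    have h2 : p.2 * M = p'.2 * M := by omega
    exact Nat.eq_of_mul_eq_mul_right hM0 h2
  have hvan : ∀ x ∉ Set.range (fun p : ℕ × ℕ => (p.1, p.2 * M + ρ - 1)),
      g (x.1 + 1) (x.2 + 1) = 0 := by
    intro x hx
    rw [hg]
    simp only
    rw [if_neg]
    intro hcon
    apply hx
    rw [ZMod.natCast_eq_natCast_iff'] at hcon
    -- `x.2 + 1 ≡ ρ mod M`, `1 ≤ ρ ≤ M` : `x.2 + 1 = m M + ρ`
    have hge : ρ ≤ x.2 + 1 := by
      by_contra hlt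
      rw [not_le] at hlt
      have h3 : (x.2 + 1) % M = x.2 + 1 := Nat.mod_eq_of_lt (by omega)
      rcases Nat.lt_or_ge ρ M with h4 | h4
      · rw [h3, Nat.mod_eq_of_lt h4] at hcon
        omega
      · have h5 : ρ = M := le_antisymm h1 h4
        rw [h3, h5, Nat.mod_self] at hcon
        omega
    have hdvd : M ∣ x.2 + 1 - ρ := (Nat.modEq_iff_dvd' hge).mp hcon.symm
    obtain ⟨m, hm⟩ := hdvd
    refine ⟨(x.1, m), ?_⟩
    ext
    · rfl
    · simp only
      rw [mul_comm m M, ← hm]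
      omega
  have hz := dscpl_coe_mul M τ
  have hcomp : (fun x : ℕ × ℕ => g (x.1 + 1) (x.2 + 1)) ∘ (fun p : ℕ × ℕ => (p.1, p.2 * M + ρ - 1)) =
      fun p : ℕ × ℕ => ((p.1 : ℂ) + 1) *
        (exp (2 * π * I * ((p.1 : ℂ) + 1) * (((t : ℝ) / M : ℝ) : ℂ)) *
          exp (2 * π * I * ((p.1 : ℂ) + 1) * ((p.2 : ℂ) + (((ρ : ℝ) / M : ℝ) : ℂ)) *
            (dscpMul M τ : ℍ))) := by
    funext p
    simp only [Function.comp_apply]
    have h2 : p.2 * M + ρ - 1 + 1 = p.2 * M + ρ := by omega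
    rw [hg]
    simp only
    rw [h2, if_pos (by push_cast; simp)]
    have e1 : exp (2 * π * I * ((p.1 : ℂ) + 1) * (((t : ℝ) / M : ℝ) : ℂ)) =
        dsw_zeta M ^ (t * ((p.1 + 1 : ℕ) : ℤ)) := by
      rw [← dscpl_exp_torsion]
      congr 1
      push_cast
      ring
    have e2 : exp (2 * π * I * ((p.1 : ℂ) + 1) * ((p.2 : ℂ) + (((ρ : ℝ) / M : ℝ) : ℂ)) *
        (dscpMul M τ : ℍ)) = q ^ ((p.1 + 1) * (p.2 * M + ρ)) := by
      rw [hq, ← Complex.exp_nat_mul, hz]
      congr 1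
      push_cast
      field_simp
    rw [e1, e2]
    push_cast
    ring
  have h2 : HasSum (fun x : ℕ × ℕ => g (x.1 + 1) (x.2 + 1))
      (∑' m : ℕ, dscpE (((m : ℂ) + (((ρ : ℝ) / M : ℝ) : ℂ)) * (dscpMul M τ : ℍ) +
        (((t : ℝ) / M : ℝ) : ℂ))) := by
    rw [← hinj.hasSum_iff hvan, hcomp]
    exact hA
  have h3 := dscpl_regroup g h2
  have hfun : (fun k : ℕ => ∑ e ∈ k.divisors, g e (k / e)) = fun k : ℕ => (∑ e ∈ k.divisors,
      if ((k / e : ℕ) : ZMod M) = (ρ : ZMod M) then (e : ℂ) * dsw_zeta M ^ (t * e) else 0) *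
        q ^ k := by
    funext k
    rw [Finset.sum_mul]
    refine Finset.sum_congr rfl (fun e he => ?_)
    rw [hg]
    simp only
    rw [Nat.mul_div_cancel' (Nat.dvd_of_mem_divisors he)]
    split_ifs <;> simp
  rw [← hfun]
  exact h3

/-- `F_{α + m, β} = F_{α, β}` (reindexing of the lattice sum). -/
theorem dscpl_F_add_int (α β : ℝ) (m : ℤ) (z : ℍ) : dscpF (α + m) β z = dscpF α β z := by
  unfold dscpF dscpP
  have h := (Equiv.addRight m).tsum_eq (fun k : ℤ => dscpE ((α : ℂ) * z + β + k * z))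
  rw [← h]
  refine tsum_congr (fun k => ?_)
  congr 1
  simp only [Equiv.coe_addRight]
  push_cast
  ring

/-- a power series expansion in `q = e(τ)` is a cusp expansion of width `1`. -/
theorem dscpl_cuspExp_of_nat {f : ℍ → ℂ} (c : ℕ → ℂ)
    (h : ∀ τ : ℍ, HasSum (fun k : ℕ => c k * exp (2 * π * I * τ) ^ k) (f τ)) :
    HasCuspExp 1 f (HahnSeries.ofPowerSeries ℤ ℂ (PowerSeries.mk c)) := by
  intro τ
  have h1 : HasSum (fun n : ℕ => (HahnSeries.ofPowerSeries ℤ ℂ (PowerSeries.mk c)).coeff (n : ℤ) *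
      exp (2 * π * I * ((n : ℤ) : ℂ) * τ / ((1 : ℕ) : ℂ))) (f τ) := by
    have hfun : (fun n : ℕ => (HahnSeries.ofPowerSeries ℤ ℂ (PowerSeries.mk c)).coeff (n : ℤ) *
        exp (2 * π * I * ((n : ℤ) : ℂ) * τ / ((1 : ℕ) : ℂ))) =
        fun k : ℕ => c k * exp (2 * π * I * τ) ^ k := by
      funext n
      rw [HahnSeries.ofPowerSeries_apply_coeff, PowerSeries.coeff_mk, ← Complex.exp_nat_mul]
      congr 2
      push_cast
      ring
    rw [hfun]
    exact h τ
  have h2 : HasSum (fun n : ℕ => (HahnSeries.ofPowerSeries ℤ ℂ (PowerSeries.mk c)).coeff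
      (-((n : ℤ) + 1)) * exp (2 * π * I * ((-((n : ℤ) + 1) : ℤ) : ℂ) * τ / ((1 : ℕ) : ℂ))) 0 := by
    have hfun : (fun n : ℕ => (HahnSeries.ofPowerSeries ℤ ℂ (PowerSeries.mk c)).coeff
        (-((n : ℤ) + 1)) * exp (2 * π * I * ((-((n : ℤ) + 1) : ℤ) : ℂ) * τ / ((1 : ℕ) : ℂ))) =
        fun _ => 0 := by
      funext n
      rw [ModularCurve.ofPowerSeries_coeff_of_neg _ (by omega), zero_mul]
    rw [hfun]
    exact hasSum_zero
  have h3 := HasSum.of_nat_of_neg_add_one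
    (f := fun m : ℤ => (HahnSeries.ofPowerSeries ℤ ℂ (PowerSeries.mk c)).coeff m *
      exp (2 * π * I * (m : ℂ) * τ / ((1 : ℕ) : ℂ))) h1 h2
  rw [add_zero] at h3
  exact h3

/-- two families of rows of the lattice sum at level `M`. -/
theorem dscpl_rows (M : ℕ) [NeZero M] (s : ℤ) {ρ₁ ρ₂ : ℕ} (h1 : 0 < ρ₁) (h1' : ρ₁ ≤ M)
    (h2 : 0 < ρ₂) (h2' : ρ₂ ≤ M) (τ : ℍ) :
    HasSum (fun k : ℕ => (∑ e ∈ k.divisors,
        ((if ((k / e : ℕ) : ZMod M) = (ρ₁ : ZMod M) then (e : ℂ) * dsw_zeta M ^ (s * e) else 0) +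
          (if ((k / e : ℕ) : ZMod M) = (ρ₂ : ZMod M) then (e : ℂ) * dsw_zeta M ^ (-(s * e))
            else 0))) * exp (2 * π * I * τ) ^ k)
      ((∑' m : ℕ, dscpE (((m : ℂ) + (((ρ₁ : ℝ) / M : ℝ) : ℂ)) * (dscpMul M τ : ℍ) +
          (((s : ℝ) / M : ℝ) : ℂ))) +
        ∑' m : ℕ, dscpE (((m : ℂ) + (((ρ₂ : ℝ) / M : ℝ) : ℂ)) * (dscpMul M τ : ℍ) +
          ((-((s : ℝ) / M) : ℝ) : ℂ))) := by
  have hA := dscpl_row M s h1 h1' τ
  have hB := dscpl_row M (-s) h2 h2' τ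
  have hB' : ((((-s : ℤ) : ℝ) / M : ℝ)) = -((s : ℝ) / M) := by
    push_cast
    ring
  rw [hB'] at hB
  have hAB := hA.add hB
  have hfun : (fun k : ℕ => (∑ e ∈ k.divisors,
        ((if ((k / e : ℕ) : ZMod M) = (ρ₁ : ZMod M) then (e : ℂ) * dsw_zeta M ^ (s * e) else 0) +
          (if ((k / e : ℕ) : ZMod M) = (ρ₂ : ZMod M) then (e : ℂ) * dsw_zeta M ^ (-(s * e))
            else 0))) * exp (2 * π * I * τ) ^ k) =
      fun k : ℕ => (∑ e ∈ k.divisors,
        if ((k / e : ℕ) : ZMod M) = (ρ₁ : ZMod M) then (e : ℂ) * dsw_zeta M ^ (s * e) else 0) *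
          exp (2 * π * I * τ) ^ k +
        (∑ e ∈ k.divisors,
        if ((k / e : ℕ) : ZMod M) = (ρ₂ : ZMod M) then (e : ℂ) * dsw_zeta M ^ (-s * e) else 0) *
          exp (2 * π * I * τ) ^ k := by
    funext k
    rw [Finset.sum_add_distrib, add_mul]
    simp only [neg_mul]
  rw [hfun]
  exact hAB

/-! ## Q2 : the expansion at `∞` of the level `M` family -/

theorem dscp_L_hasCuspExp (M : ℕ) [NeZero M] {r s : ℤ} (h : DscpAdm M r s) :
    HasCuspExp 1 (dscpL M r s) (dscpS M r s) := by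
  unfold dscpS
  apply dscpl_cuspExp_of_nat
  intro τ
  have hM0 : 0 < M := Nat.pos_of_ne_zero (NeZero.ne M)
  have hMZ : (0 : ℤ) < M := by exact_mod_cast hM0
  have hM : (M : ℝ) ≠ 0 := Nat.cast_ne_zero.mpr (NeZero.ne M)
  set r0 : ℕ := (r % M).toNat with hr0
  have hr0' : (r0 : ℤ) = r % M := Int.toNat_of_nonneg (Int.emod_nonneg r hMZ.ne')
  have hr0lt : r0 < M := by
    have := Int.emod_lt_of_pos r hMZ
    omega
  have hrZ : (r : ZMod M) = (r0 : ZMod M) := by
    rw [← Int.cast_natCast, hr0', ZMod.intCast_mod]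
  have hL : dscpL M r s τ = dscpF ((r0 : ℝ) / M) ((s : ℝ) / M) (dscpMul M τ) := by
    unfold dscpL
    have hdiv : (r : ℝ) / M = (r0 : ℝ) / M + ((r / M : ℤ) : ℝ) := by
      have h1 := Int.emod_add_mul_ediv r M
      rw [← hr0'] at h1
      have h2 : (r : ℝ) = (r0 : ℝ) + (M : ℝ) * ((r / M : ℤ) : ℝ) := by exact_mod_cast h1.symm
      rw [h2]
      field_simp
    rw [hdiv, dscpl_F_add_int]
  rw [hL]
  rcases Nat.eq_zero_or_pos r0 with h0 | h0
  · -- `r ≡ 0`
    have hr : (r : ZMod M) = 0 := by rw [hrZ, h0, Nat.cast_zero]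
    have hrows := dscpl_rows M s hM0 le_rfl hM0 le_rfl τ
    have hone : ((M : ℝ) / M : ℝ) = 1 := div_self hM
    rw [hone, ← dscpq_F_zero_eq ((s : ℝ) / M) (dscpMul M τ)] at hrows
    have hconst : HasSum (fun k : ℕ => if k = 0 then dscpE ((((s : ℝ) / M : ℝ)) : ℂ) else 0)
        (dscpE ((((s : ℝ) / M : ℝ)) : ℂ)) := hasSum_ite_eq 0 _
    have hsum := hconst.add hrows
    rw [add_sub_cancel] at hsum
    rw [h0, Nat.cast_zero, zero_div]
    have hfun : (fun k : ℕ => (if k = 0 then (if (r : ZMod M) = 0 then dscpE ((s : ℂ) / M) else 0)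
        else dscpCoeff M r s k) * exp (2 * π * I * τ) ^ k) = fun k : ℕ =>
        (if k = 0 then dscpE ((((s : ℝ) / M : ℝ)) : ℂ) else 0) + (∑ e ∈ k.divisors,
        ((if ((k / e : ℕ) : ZMod M) = ((M : ℕ) : ZMod M) then (e : ℂ) * dsw_zeta M ^ (s * e) else 0) +
          (if ((k / e : ℕ) : ZMod M) = ((M : ℕ) : ZMod M) then (e : ℂ) * dsw_zeta M ^ (-(s * e))
            else 0))) * exp (2 * π * I * τ) ^ k := by
      funext k
      by_cases hk : k = 0
      · subst hk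
        simp [hr]
      · rw [if_neg hk, if_neg hk, zero_add]
        unfold dscpCoeff
        rw [hr, neg_zero, ZMod.natCast_self]
    rw [hfun]
    exact hsum
  · -- `0 < r0 < M`
    have hr : (r : ZMod M) ≠ 0 := by
      rw [hrZ]
      intro hcon
      rw [ZMod.natCast_eq_zero_iff] at hcon
      exact absurd (Nat.le_of_dvd h0 hcon) (not_le.mpr hr0lt)
    have hrows := dscpl_rows M s h0 hr0lt.le (Nat.sub_pos_of_lt hr0lt) (Nat.sub_le M r0) τ
    have hα0 : 0 < (r0 : ℝ) / M := by positivity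
    have hα1 : (r0 : ℝ) / M < 1 := by
      rw [div_lt_one (by positivity)]
      exact_mod_cast hr0lt
    have hsub : (((M - r0 : ℕ) : ℝ) / M : ℝ) = 1 - (r0 : ℝ) / M := by
      rw [Nat.cast_sub hr0lt.le, sub_div, div_self hM]
    rw [hsub, ← dscpq_F_eq ((s : ℝ) / M) hα0 hα1 (dscpMul M τ)] at hrows
    have hfun : (fun k : ℕ => (if k = 0 then (if (r : ZMod M) = 0 then dscpE ((s : ℂ) / M) else 0)
        else dscpCoeff M r s k) * exp (2 * π * I * τ) ^ k) = fun k : ℕ => (∑ e ∈ k.divisors,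
        ((if ((k / e : ℕ) : ZMod M) = ((r0 : ℕ) : ZMod M) then (e : ℂ) * dsw_zeta M ^ (s * e) else 0) +
          (if ((k / e : ℕ) : ZMod M) = ((M - r0 : ℕ) : ZMod M) then
            (e : ℂ) * dsw_zeta M ^ (-(s * e)) else 0))) * exp (2 * π * I * τ) ^ k := by
      funext k
      by_cases hk : k = 0
      · subst hk
        simp [hr]
      · rw [if_neg hk]
        unfold dscpCoeff
        rw [hrZ, Nat.cast_sub hr0lt.le, ZMod.natCast_self, zero_sub]
    rw [hfun]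
    exact hrows

theorem dscp_S_eq_X (M : ℕ) [NeZero M] {a : ZMod M} (ha : a ≠ 0) :
    dscpS M (a.val : ℤ) 0 = dscXR ℂ M a := by
  unfold dscpS dscXR
  congr 1
  have hcast : (((a.val : ℕ) : ℤ) : ZMod M) = a := by
    rw [Int.cast_natCast, ZMod.natCast_val, ZMod.cast_id', id_eq]
  ext n
  rw [PowerSeries.coeff_mk, PowerSeries.coeff_map, hcast, if_neg ha]
  unfold dscX
  rw [PowerSeries.coeff_mk]
  by_cases hn : n = 0
  · subst hn
    simp
  · rw [if_neg hn]
    unfold dscpCoeff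
    rw [hcast]
    simp only [zero_mul, neg_zero, zpow_zero, mul_one]
    rw [map_sum]
    refine Finset.sum_congr rfl (fun e _ => ?_)
    rw [map_add]
    congr 1
    · split_ifs <;> simp
    · split_ifs <;> simp

/-- the function `dscpX M a` has the `q`-expansion `X̃_a`. -/
theorem dscp_X_hasCuspExp (M : ℕ) [NeZero M] {a : ZMod M} (ha : a ≠ 0) :
    HasCuspExp 1 (dscpX M a) (dscXR ℂ M a) := by
  rw [← dscp_S_eq_X M ha]
  unfold dscpX
  apply dscp_L_hasCuspExp
  intro hcon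
  apply ha
  have h1 := hcon.1
  rwa [Int.cast_natCast, ZMod.natCast_val, ZMod.cast_id', id_eq] at h1

end Fermat.Agent.DS
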