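import Fermat.Agent.DS.C.P.Hol

/-!
# DS-C row C1a, leaf L1 : the level `M` layer: periodicity, holomorphy, the `Γ₀(M)`-slash of the
differences `L_v - L_w`, and the functions `dscpX M a`
-/

set_option autoImplicit false

open UpperHalfPlane hiding I
open Complex CongruenceSubgroup Filter Topology
open scoped Real MatrixGroups ModularForm Manifold

noncomputable section

namespace Fermat.Agent.DS

theorem dscp_L_add (M : ℕ) [NeZero M] (r s m n : ℤ) :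
    dscpL M (r + M * m) (s + M * n) = dscpL M r s := by
  funext τ
  unfold dscpL
  have hM : (M : ℝ) ≠ 0 := by exact_mod_cast NeZero.ne M
  have e1 : (((r + M * m : ℤ) : ℝ)) / M = (r : ℝ) / M + m := by
    push_cast; field_simp
  have e2 : (((s + M * n : ℤ) : ℝ)) / M = (s : ℝ) / M + n := by
    push_cast; field_simp
  rw [e1, e2, dscp_F_add_int]

theorem dscp_L_neg (M : ℕ) [NeZero M] (r s : ℤ) : dscpL M (-r) (-s) = dscpL M r s := by
  funext τ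
  unfold dscpL
  have e1 : (((-r : ℤ) : ℝ)) / M = -((r : ℝ) / M) := by push_cast; ring
  have e2 : (((-s : ℤ) : ℝ)) / M = -((s : ℝ) / M) := by push_cast; ring
  rw [e1, e2, dscp_F_neg]

theorem dscp_L_congr (M : ℕ) [NeZero M] {r s r' s' : ℤ} (hr : (r : ZMod M) = r')
    (hs : (s : ZMod M) = s') : dscpL M r s = dscpL M r' s' := by
  have h1 : (M : ℤ) ∣ r - r' := by
    rw [← ZMod.intCast_zmod_eq_zero_iff_dvd]
    push_cast
    rw [hr, sub_self]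
  have h2 : (M : ℤ) ∣ s - s' := by
    rw [← ZMod.intCast_zmod_eq_zero_iff_dvd]
    push_cast
    rw [hs, sub_self]
  obtain ⟨m, hm⟩ := h1
  obtain ⟨n, hn⟩ := h2
  have e1 : r = r' + M * m := by linarith
  have e2 : s = s' + M * n := by linarith
  rw [e1, e2, dscp_L_add]

theorem dscp_nonInt_of_adm (M : ℕ) [NeZero M] {r s : ℤ} (h : DscpAdm M r s) :
    DscpNonInt ((r : ℝ) / M) ((s : ℝ) / M) := by
  have hM : (M : ℝ) ≠ 0 := by exact_mod_cast NeZero.ne M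
  rintro ⟨⟨m, hm⟩, ⟨n, hn⟩⟩
  apply h
  constructor
  · rw [ZMod.intCast_zmod_eq_zero_iff_dvd]
    refine ⟨m, ?_⟩
    have : (r : ℝ) = (M : ℝ) * m := by
      rw [div_eq_iff hM] at hm
      linarith
    exact_mod_cast this
  · rw [ZMod.intCast_zmod_eq_zero_iff_dvd]
    refine ⟨n, ?_⟩
    have : (s : ℝ) = (M : ℝ) * n := by
      rw [div_eq_iff hM] at hn
      linarith
    exact_mod_cast this

theorem dscp_det_pos (M : ℕ) [NeZero M] : 0 < ((Fermat.Agent.S23.utGL M 0 1).det : ℝ) :=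
  Fermat.Agent.S23.det_utGL_pos (NeZero.ne M) one_ne_zero 0

theorem dscp_coe_mul (M : ℕ) [NeZero M] (τ : ℍ) : ((dscpMul M τ : ℍ) : ℂ) = (M : ℂ) * τ := by
  unfold dscpMul
  rw [Fermat.Agent.S23.coe_utGL_smul (NeZero.ne M) one_ne_zero 0 τ]
  simp

theorem dscp_L_mdiff (M : ℕ) [NeZero M] {r s : ℤ} (h : DscpAdm M r s) : MDiff (dscpL M r s) := by
  have h1 := dscp_F_mdiff (dscp_nonInt_of_adm M h)
  exact h1.comp (UpperHalfPlane.mdifferentiable_smul (dscp_det_pos M))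

/-- the pairs `(r, s) γ'`, `γ' = [a, bM; c/M, d]`, are admissible. -/
theorem dscp_adm_smul (M : ℕ) [NeZero M] (γ : SL(2, ℤ)) (c' : ℤ) (hc : γ 1 0 = M * c') {r s : ℤ}
    (h : DscpAdm M r s) : DscpAdm M (r * γ 0 0 + s * c') (r * (γ 0 1 * M) + s * γ 1 1) := by
  rintro ⟨h1, h2⟩
  apply h
  have hdet : γ 0 0 * γ 1 1 - γ 0 1 * γ 1 0 = 1 := by
    have := γ.det_coe
    rw [Matrix.det_fin_two] at this
    exact this
  rw [ZMod.intCast_zmod_eq_zero_iff_dvd] at h1 h2 ⊢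
  rw [ZMod.intCast_zmod_eq_zero_iff_dvd]
  obtain ⟨x, hx⟩ := h1
  obtain ⟨y, hy⟩ := h2
  constructor
  · refine ⟨x * γ 1 1 - y * c', ?_⟩
    rw [hc] at hdet
    linear_combination (-r) * hdet + (γ 1 1) * hx - c' * hy
  · refine ⟨y * γ 0 0 - x * γ 0 1 * M, ?_⟩
    rw [hc] at hdet
    linear_combination (-s) * hdet + (γ 0 0) * hy - (γ 0 1 * M) * hx

/-- `Γ₀(M)` acts on the level `M` family through `[a, bM; c/M, d]`. -/
theorem dscp_L_sub_slash (M : ℕ) [NeZero M] (γ : SL(2, ℤ)) (hγ : γ ∈ Gamma0 M) {r s r' s' : ℤ}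
    (h : DscpAdm M r s) (h' : DscpAdm M r' s') :
    (dscpL M r s - dscpL M r' s') ∣[(2 : ℤ)] γ =
      dscpL M (r * γ 0 0 + s * (γ 1 0 / M)) (r * (γ 0 1 * M) + s * γ 1 1) -
        dscpL M (r' * γ 0 0 + s' * (γ 1 0 / M)) (r' * (γ 0 1 * M) + s' * γ 1 1) := by
  have hM : (M : ℝ) ≠ 0 := by exact_mod_cast NeZero.ne M
  have hMz : (M : ℤ) ≠ 0 := by exact_mod_cast NeZero.ne M
  have hdvd : (M : ℤ) ∣ γ 1 0 :=
    (ZMod.intCast_zmod_eq_zero_iff_dvd _ M).mp (Gamma0_mem.mp hγ)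
  obtain ⟨c', hc⟩ := hdvd
  have hdiv : γ 1 0 / M = c' := by rw [hc]; exact Int.mul_ediv_cancel_left _ hMz
  rw [hdiv]
  set γ' := Fermat.Agent.S23.unstab_conjSL M γ c' hc with hγ'
  funext τ
  have hj : denom γ τ ≠ 0 := denom_ne_zero γ τ
  -- `M (γ τ) = γ' (M τ)`
  have hmul : dscpMul M (γ • τ) = γ' • dscpMul M τ := by
    unfold dscpMul
    have h1 : (γ • τ : ℍ) = (Matrix.SpecialLinearGroup.mapGL ℝ γ : GL (Fin 2) ℝ) • τ := rfl
    have h2 : (γ' • (Fermat.Agent.S23.utGL M 0 1 • τ) : ℍ) =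
        (Matrix.SpecialLinearGroup.mapGL ℝ γ' : GL (Fin 2) ℝ) •
          (Fermat.Agent.S23.utGL M 0 1 • τ) := rfl
    rw [h1, h2, ← mul_smul, ← mul_smul,
      Fermat.Agent.S23.utGL_mul_mapGL M (NeZero.ne M) γ c' hc]
  -- the automorphy factors agree
  have hden : denom γ' (dscpMul M τ) = denom γ τ := by
    rw [dsw_denom, dsw_denom, dscp_coe_mul, hc]
    have e1 : (γ' 1 0 : ℤ) = c' := by simp [hγ', Fermat.Agent.S23.unstab_conjSL]
    have e2 : (γ' 1 1 : ℤ) = γ 1 1 := by simp [hγ', Fermat.Agent.S23.unstab_conjSL]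
    rw [e1, e2]
    push_cast
    ring
  have e00 : (γ' 0 0 : ℤ) = γ 0 0 := by simp [hγ', Fermat.Agent.S23.unstab_conjSL]
  have e01 : (γ' 0 1 : ℤ) = M * γ 0 1 := by simp [hγ', Fermat.Agent.S23.unstab_conjSL]
  have e10 : (γ' 1 0 : ℤ) = c' := by simp [hγ', Fermat.Agent.S23.unstab_conjSL]
  have e11 : (γ' 1 1 : ℤ) = γ 1 1 := by simp [hγ', Fermat.Agent.S23.unstab_conjSL]
  rw [ModularForm.SL_slash_apply, Pi.sub_apply, Pi.sub_apply]
  unfold dscpL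
  rw [hmul, dscp_F_sub_smul γ' (dscp_nonInt_of_adm M h) (dscp_nonInt_of_adm M h'), hden]
  rw [e00, e01, e10, e11]
  have k1 : (r : ℝ) / M * ((γ 0 0 : ℤ) : ℝ) + (s : ℝ) / M * ((c' : ℤ) : ℝ) =
      ((r * γ 0 0 + s * c' : ℤ) : ℝ) / M := by push_cast; ring
  have k2 : (r : ℝ) / M * (((M * γ 0 1 : ℤ)) : ℝ) + (s : ℝ) / M * ((γ 1 1 : ℤ) : ℝ) =
      ((r * (γ 0 1 * M) + s * γ 1 1 : ℤ) : ℝ) / M := by push_cast; ring
  have k1' : (r' : ℝ) / M * ((γ 0 0 : ℤ) : ℝ) + (s' : ℝ) / M * ((c' : ℤ) : ℝ) =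
      ((r' * γ 0 0 + s' * c' : ℤ) : ℝ) / M := by push_cast; ring
  have k2' : (r' : ℝ) / M * (((M * γ 0 1 : ℤ)) : ℝ) + (s' : ℝ) / M * ((γ 1 1 : ℤ) : ℝ) =
      ((r' * (γ 0 1 * M) + s' * γ 1 1 : ℤ) : ℝ) / M := by push_cast; ring
  rw [k1, k2, k1', k2']
  rw [zpow_neg]
  have : denom γ τ ^ (2 : ℤ) = denom γ τ ^ 2 := by norm_cast
  rw [this]
  field_simp

/-! ### the functions `dscpX M a` -/

theorem dscp_adm_of_ne (M : ℕ) [NeZero M] {a : ZMod M} (ha : a ≠ 0) : DscpAdm M (a.val : ℤ) 0 := by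
  rintro ⟨h1, -⟩
  apply ha
  have : ((a.val : ℤ) : ZMod M) = a := by
    rw [Int.cast_natCast, ZMod.natCast_zmod_val]
  rw [← this, h1]

theorem dscp_X_mdiff (M : ℕ) [NeZero M] {a : ZMod M} (ha : a ≠ 0) : MDiff (dscpX M a) :=
  dscp_L_mdiff M (dscp_adm_of_ne M ha)

theorem dscp_X_eq (M : ℕ) [NeZero M] (a : ZMod M) {r s : ℤ} (hr : (r : ZMod M) = a)
    (hs : (s : ZMod M) = 0) : dscpL M r s = dscpX M a := by
  unfold dscpX
  apply dscp_L_congr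
  · rw [hr, Int.cast_natCast, ZMod.natCast_zmod_val]
  · rw [hs, Int.cast_zero]

theorem dscp_X_neg (M : ℕ) [NeZero M] (a : ZMod M) : dscpX M (-a) = dscpX M a := by
  have h1 : dscpL M (-(a.val : ℤ)) (-0) = dscpX M (-a) := by
    apply dscp_X_eq
    · push_cast
      rw [ZMod.natCast_zmod_val]
    · simp
  rw [← h1, dscp_L_neg]
  rfl

/-- the diamond action: for `γ ∈ Γ₀(M)`, `(X_a - X_b)∣γ = X_{γ₀₀ a} - X_{γ₀₀ b}`. -/
theorem dscp_X_sub_slash (M : ℕ) [NeZero M] (γ : SL(2, ℤ)) (hγ : γ ∈ Gamma0 M) {a b : ZMod M}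
    (ha : a ≠ 0) (hb : b ≠ 0) :
    (dscpX M a - dscpX M b) ∣[(2 : ℤ)] γ =
      dscpX M (((γ 0 0 : ℤ) : ZMod M) * a) - dscpX M (((γ 0 0 : ℤ) : ZMod M) * b) := by
  unfold dscpX
  rw [dscp_L_sub_slash M γ hγ (dscp_adm_of_ne M ha) (dscp_adm_of_ne M hb)]
  congr 1
  · apply dscp_X_eq
    · push_cast
      rw [ZMod.natCast_zmod_val]
      ring
    · push_cast
      simp
  · apply dscp_X_eq
    · push_cast
      rw [ZMod.natCast_zmod_val]
      ring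
    · push_cast
      simp

end Fermat.Agent.DS
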