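import Fermat.Agent.DS.C.P.Cusps
import Fermat.Agent.DS.C.P.Level

/-!
# Program DS, package (C), row C1a, leaf L3 : the expansions at ALL cusps of the level `M` Fricke family.

* `dscp_L_sub_slash_hasCuspExp` : for `g ∈ SL₂(ℤ)` with `diag(M,1) · g = g' · [A, B; 0, D]`:
  `(L_v - L_w)∣g = D⁻² (S_{v g'} - S_{w g'}) (ζ q^{A/(DM)})`, `ζ = e(B/(DM))`, as an expansion in `e(τ/(DM))`.
* `dscpe_descend` : an expansion in `e(τ/(hk))` of a `T^h`-periodic function is an expansion in `e(τ/h)`.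
* `dscp_X_sub_slash_general_hasCuspExp` : `(X_a - X_b)∣g` has an expansion in `e(τ/M)` with algebraic
  coefficients (the input of `DscLevel.conj` for `X₁(M)`).
Consumes L2 (`P/Cusps.lean`), Q2 `dscp_L_hasCuspExp` (`P/Level.lean`) and L1 `dscp_X_sub_slash` (`P/Slash.lean`).
Private prefix `dscpe_`.
-/

set_option autoImplicit false

open UpperHalfPlane hiding I
open Complex CongruenceSubgroup Fermat.Agent.S24
open scoped Real MatrixGroups ModularForm Manifold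

noncomputable section

namespace Fermat.Agent.DS

open Fermat.Agent.S23 ModularCurve

/-- `F_{r/M,s/M}((Aτ+B)/D) = L_{r,s}((Aτ+B)/(DM))`. -/
theorem dscpe_F_eq_L (M : ℕ) [NeZero M] {A D : ℕ} (hA : A ≠ 0) (hD : D ≠ 0) (B : ℤ) (r s : ℤ)
    (τ : ℍ) :
    dscpF ((r : ℝ) / M) ((s : ℝ) / M) (utGL A B D • τ) = dscpL M r s (utGL A B (D * M) • τ) := by
  have hM : M ≠ 0 := NeZero.ne M
  have hDM : D * M ≠ 0 := Nat.mul_ne_zero hD hM
  rw [dscpL]
  congr 1
  ext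
  rw [dscpMul, coe_utGL_smul hM one_ne_zero, coe_utGL_smul hA hD, coe_utGL_smul hA hDM]
  have h1 : (M : ℂ) ≠ 0 := by exact_mod_cast hM
  have h2 : (D : ℂ) ≠ 0 := by exact_mod_cast hD
  push_cast
  field_simp
  ring

/-- admissibility is preserved by `SL₂(ℤ)`. -/
theorem dscpe_adm_mul (M : ℕ) (g' : SL(2, ℤ)) {r s : ℤ} (h : DscpAdm M r s) :
    DscpAdm M (r * g' 0 0 + s * g' 1 0) (r * g' 0 1 + s * g' 1 1) := by
  rintro ⟨h1, h2⟩
  apply h
  have hdet : g' 0 0 * g' 1 1 - g' 0 1 * g' 1 0 = 1 := by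
    have h := g'.det_coe
    rw [Matrix.det_fin_two] at h
    exact h
  constructor
  · have e : r = (r * g' 0 0 + s * g' 1 0) * g' 1 1 - (r * g' 0 1 + s * g' 1 1) * g' 1 0 := by
      linear_combination (-r) * hdet
    rw [e]
    push_cast at h1 h2 ⊢
    rw [h1, h2]
    ring
  · have e : s = -(r * g' 0 0 + s * g' 1 0) * g' 0 1 + (r * g' 0 1 + s * g' 1 1) * g' 0 0 := by
      linear_combination (-s) * hdet
    rw [e]
    push_cast at h1 h2 ⊢
    rw [h1, h2]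
    ring

/-- L3 (a): the expansion of `(L_v - L_w)∣g` in `e(τ/(DM))`, explicitly. -/
theorem dscp_L_sub_slash_hasCuspExp (M : ℕ) [NeZero M] (g : SL(2, ℤ)) :
    ∃ (g' : SL(2, ℤ)) (A D : ℕ) (B : ℤ) (ζ : ℂˣ) (_ : NeZero A) (_ : NeZero D),
      A * D = M ∧ 0 ≤ B ∧ B < D ∧ (ζ : ℂ) = exp (2 * π * I * B / ((D * M : ℕ) : ℂ)) ∧
      utGL M 0 1 * Matrix.SpecialLinearGroup.mapGL ℝ g
        = Matrix.SpecialLinearGroup.mapGL ℝ g' * utGL A B D ∧
      ∀ {r s r' s' : ℤ}, DscpAdm M r s → DscpAdm M r' s' →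
        HasCuspExp (D * M) ((dscpL M r s - dscpL M r' s') ∣[(2 : ℤ)] g)
          (HahnSeries.C (((D : ℂ) ^ 2)⁻¹) * qExpand ℂ A (rotLaurent ζ
            (dscpS M (r * g' 0 0 + s * g' 1 0) (r * g' 0 1 + s * g' 1 1) -
              dscpS M (r' * g' 0 0 + s' * g' 1 0) (r' * g' 0 1 + s' * g' 1 1)))) := by
  have hM : M ≠ 0 := NeZero.ne M
  obtain ⟨g', A, D, B, hA, hD, hAD, hB0, hBD, hdec⟩ := dscpc_exists_decomp M hM g
  have hDM : D * M ≠ 0 := Nat.mul_ne_zero hD hM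
  have : NeZero (D * M) := ⟨hDM⟩
  refine ⟨g', A, D, B, Units.mk0 (exp (2 * π * I * B / ((D * M : ℕ) : ℂ))) (exp_ne_zero _),
    ⟨hA⟩, ⟨hD⟩, hAD, hB0, hBD, rfl, hdec, ?_⟩
  intro r s r' s' h h'
  have hv := dscpe_adm_mul M g' h
  have hw := dscpe_adm_mul M g' h'
  have hS := (dscp_L_hasCuspExp M hv).add (dscp_L_hasCuspExp M hw).neg
  have h2 := hS.comp_affine hA hDM B (utGL A B (D * M)) (fun τ => coe_utGL_smul hA hDM B τ)
    (Units.mk0 (exp (2 * π * I * B / ((D * M : ℕ) : ℂ))) (exp_ne_zero _)) rfl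
  have h3 := (HasCuspExp.const (h := D * M) (((D : ℂ) ^ 2)⁻¹)).mul h2
  rw [← sub_eq_add_neg (dscpS M _ _)] at h3
  convert h3 using 1
  funext τ
  rw [dscpc_slash_of_decomp M g g' B hA hD hdec h h' τ]
  have e1 : ∀ x y : ℤ, (x : ℝ) / M * ((g' 0 0 : ℤ) : ℝ) + (y : ℝ) / M * ((g' 1 0 : ℤ) : ℝ)
      = ((x * g' 0 0 + y * g' 1 0 : ℤ) : ℝ) / M := by
    intro x y; push_cast; ring
  have e2 : ∀ x y : ℤ, (x : ℝ) / M * ((g' 0 1 : ℤ) : ℝ) + (y : ℝ) / M * ((g' 1 1 : ℤ) : ℝ)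
      = ((x * g' 0 1 + y * g' 1 1 : ℤ) : ℝ) / M := by
    intro x y; push_cast; ring
  rw [e1, e2, e1, e2, dscpe_F_eq_L M hA hD, dscpe_F_eq_L M hA hD]
  simp only [Pi.mul_apply, Pi.add_apply, Pi.neg_apply, sub_eq_add_neg]

/-- translation by an integer rotates the expansion. -/
theorem dscpe_comp_translate {H : ℕ} {f : ℍ → ℂ} {S : LaurentSeries ℂ} (hS : HasCuspExp H f S)
    (n : ℤ) (ζ : ℂˣ) (hζ : (ζ : ℂ) = exp (2 * π * I * n / H)) (t : ℍ → ℍ)
    (ht : ∀ τ : ℍ, ((t τ : ℍ) : ℂ) = τ + n) :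
    HasCuspExp H (fun τ => f (t τ)) (rotLaurent ζ S) := by
  intro τ
  have h1 := hS (t τ)
  have e1 : (fun m : ℤ => (rotLaurent ζ S).coeff m * exp (2 * π * I * m * τ / H)) =
      fun m : ℤ => S.coeff m * exp (2 * π * I * m * ((t τ : ℍ) : ℂ) / H) := by
    funext m
    rw [rotLaurent_coeff, ht, hζ, ← exp_int_mul, mul_comm (exp _) (S.coeff m), mul_assoc,
      ← exp_add]
    congr 2
    ring
  rw [e1]
  exact h1

/-- L3 (b): a `T^h`-periodic function with an expansion in `e(τ/(hk))` has an expansion in `e(τ/h)`. -/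
theorem dscpe_descend {h k : ℕ} [NeZero h] [NeZero k] {f : ℍ → ℂ} {S : LaurentSeries ℂ}
    (hS : HasCuspExp (h * k) f S) (t : ℍ → ℍ) (ht : ∀ τ : ℍ, ((t τ : ℍ) : ℂ) = τ + h)
    (hper : ∀ τ : ℍ, f (t τ) = f τ) :
    ∃ S₁ : LaurentSeries ℂ, HasCuspExp h f S₁ ∧ S = qExpand ℂ k S₁ := by
  have hh : (h : ℂ) ≠ 0 := Nat.cast_ne_zero.2 (NeZero.ne h)
  have hk : (k : ℂ) ≠ 0 := Nat.cast_ne_zero.2 (NeZero.ne k)
  have : NeZero (h * k) := ⟨Nat.mul_ne_zero (NeZero.ne h) (NeZero.ne k)⟩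
  let ζ : ℂˣ := Units.mk0 (exp (2 * π * I * ((h : ℤ) : ℂ) / ((h * k : ℕ) : ℂ))) (exp_ne_zero _)
  have hζ : (ζ : ℂ) = exp (2 * π * I * ((h : ℤ) : ℂ) / ((h * k : ℕ) : ℂ)) := rfl
  have hrot : rotLaurent ζ S = S := by
    have h1 := dscpe_comp_translate hS (h : ℤ) ζ hζ t (fun τ => by rw [ht]; push_cast; rfl)
    have h2 : (fun τ => f (t τ)) = f := funext hper
    rw [h2] at h1
    exact h1.unique hS
  have hdvd : ∀ m : ℤ, S.coeff m ≠ 0 → (k : ℤ) ∣ m := by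
    intro m hm
    have h1 := congrArg (fun X : LaurentSeries ℂ => X.coeff m) hrot
    simp only [rotLaurent_coeff] at h1
    have h2 : (ζ : ℂ) ^ m = 1 := by
      have : ((ζ : ℂ) ^ m - 1) * S.coeff m = 0 := by rw [sub_mul, h1, one_mul, sub_self]
      rcases mul_eq_zero.1 this with h3 | h3
      · exact sub_eq_zero.1 h3
      · exact absurd h3 hm
    have h3 : exp ((m : ℂ) * (2 * π * I / k)) = 1 := by
      rw [← h2, hζ, ← exp_int_mul]
      congr 1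
      push_cast
      field_simp
    obtain ⟨n, hn⟩ := exp_eq_one_iff.1 h3
    have h2pi : (2 * π * I : ℂ) ≠ 0 := two_pi_I_ne_zero
    have h4 : (m : ℂ) = (k : ℂ) * n := by
      have h5 : (m : ℂ) * (2 * π * I) = ((k : ℂ) * n) * (2 * π * I) := by
        have h6 : (m : ℂ) * (2 * π * I / k) * k = (n : ℂ) * (2 * π * I) * k := by
          rw [hn]
        rw [mul_assoc, div_mul_cancel₀ _ hk] at h6
        rw [h6]; ring
      exact mul_right_cancel₀ h2pi h5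
    exact ⟨n, by exact_mod_cast h4⟩
  have hbdd : BddBelow (Function.support fun n : ℤ => S.coeff ((k : ℤ) * n)) := by
    refine ⟨min S.order 0, fun n hn => ?_⟩
    rw [Function.mem_support] at hn
    have h1 : S.order ≤ (k : ℤ) * n := HahnSeries.order_le_of_coeff_ne_zero hn
    have hpos : (1 : ℤ) ≤ k := by exact_mod_cast Nat.one_le_iff_ne_zero.2 (NeZero.ne k)
    by_contra hlt
    push Not at hlt
    rw [lt_min_iff] at hlt
    nlinarith [hlt.1, hlt.2]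
  have hS' : S = qExpand ℂ k (HahnSeries.ofSuppBddBelow _ hbdd) := by
    ext m
    by_cases hdm : (k : ℤ) ∣ m
    · obtain ⟨n, rfl⟩ := hdm
      rw [qExpand_coeff_mul, HahnSeries.coeff_ofSuppBddBelow]
    · rw [qExpand_coeff_of_not_dvd k _ hdm]
      by_contra hne
      exact hdm (hdvd m hne)
  refine ⟨HahnSeries.ofSuppBddBelow _ hbdd, ?_, hS'⟩
  refine (cuspExp_qExpand_iff (h := h) k).1 ?_
  rw [← hS']
  exact hS

/-! ### the `X`-differences: width `M` -/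

/-- `(X_a - X_b)∣g` is `T^M`-periodic. -/
theorem dscpe_X_periodic (M : ℕ) [NeZero M] (g : SL(2, ℤ)) {a b : ZMod M} (ha : a ≠ 0) (hb : b ≠ 0)
    (τ : ℍ) :
    ((dscpX M a - dscpX M b) ∣[(2 : ℤ)] g) (ModularGroup.T ^ (M : ℤ) • τ) =
      ((dscpX M a - dscpX M b) ∣[(2 : ℤ)] g) τ := by
  have hT : ModularGroup.T ^ (M : ℤ) ∈ CongruenceSubgroup.Gamma M := by
    have := ModularGroup_T_pow_mem_Gamma (M : ℤ) (M : ℤ) dvd_rfl
    simpa using this
  have hγ : g * ModularGroup.T ^ (M : ℤ) * g⁻¹ ∈ CongruenceSubgroup.Gamma M :=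
    (Gamma_normal M).conj_mem _ hT g
  obtain ⟨h00, -, h10, -⟩ := Gamma_mem.1 hγ
  have hγ0 : g * ModularGroup.T ^ (M : ℤ) * g⁻¹ ∈ Gamma0 M := Gamma0_mem.2 h10
  have h1 := dscp_X_sub_slash M _ hγ0 ha hb
  rw [h00, one_mul, one_mul] at h1
  have h2 : ((dscpX M a - dscpX M b) ∣[(2 : ℤ)] g) ∣[(2 : ℤ)] (ModularGroup.T ^ (M : ℤ)) =
      (dscpX M a - dscpX M b) ∣[(2 : ℤ)] g := by
    rw [← SlashAction.slash_mul]
    conv_rhs => rw [← h1, ← SlashAction.slash_mul]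
    congr 1
    group
  have h3 := congrFun h2 τ
  rw [ModularForm.SL_slash_apply] at h3
  rw [← h3]
  have hden : denom (Matrix.SpecialLinearGroup.toGL ((Matrix.SpecialLinearGroup.map
      (Int.castRingHom ℝ)) (ModularGroup.T ^ (M : ℤ)))) τ = 1 := by
    have e := ModularGroup.coe_T_zpow (M : ℤ)
    have e10 : (ModularGroup.T ^ (M : ℤ)) 1 0 = 0 := by rw [e]; rfl
    have e11 : (ModularGroup.T ^ (M : ℤ)) 1 1 = 1 := by rw [e]; rfl
    have := ModularGroup.denom_apply (ModularGroup.T ^ (M : ℤ)) τ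
    rw [e10, e11] at this
    simpa using this
  rw [hden, one_zpow, mul_one]

theorem dscpe_isIntegral_exp (n : ℤ) (d : ℕ) (hd : d ≠ 0) :
    IsIntegral ℚ (exp (2 * π * I * n / d)) := by
  apply IsIntegral.of_pow (Nat.pos_of_ne_zero hd)
  have hd' : (d : ℂ) ≠ 0 := by exact_mod_cast hd
  have : exp (2 * π * I * n / d) ^ d = 1 := by
    rw [← exp_nat_mul, ← exp_int_mul_two_pi_mul_I n]
    congr 1
    field_simp
  rw [this]
  exact isIntegral_one

theorem dscpe_isIntegral_zpow {x : ℂ} (hx : IsIntegral ℚ x) (j : ℤ) : IsIntegral ℚ (x ^ j) := by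
  rcases j with j | j
  · simpa using hx.pow j
  · rw [zpow_negSucc]
    exact (hx.pow _).inv

theorem dscpe_isIntegral_zeta (M : ℕ) [NeZero M] : IsIntegral ℚ (dsw_zeta M) := by
  have := dscpe_isIntegral_exp 1 M (NeZero.ne M)
  simpa [dsw_zeta] using this

theorem dscpe_isIntegral_natCast (n : ℕ) : IsIntegral ℚ (n : ℂ) := by
  have := isIntegral_algebraMap (R := ℚ) (A := ℂ) (x := (n : ℚ))
  simpa using this

theorem dscpe_isIntegral_E (M : ℕ) [NeZero M] (s : ℤ) : IsIntegral ℚ (dscpE ((s : ℂ) / M)) := by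
  have h1 : IsIntegral ℚ (exp (2 * π * I * ((s : ℂ) / M))) := by
    have := dscpe_isIntegral_exp s M (NeZero.ne M)
    rwa [mul_div_assoc] at this
  rw [dscpE, div_eq_mul_inv]
  exact h1.mul ((isIntegral_one.sub h1).pow 2).inv

theorem dscpe_isIntegral_coeff (M : ℕ) [NeZero M] (r s : ℤ) (n : ℕ) :
    IsIntegral ℚ (dscpCoeff M r s n) := by
  rw [dscpCoeff]
  refine IsIntegral.sum _ fun e _ => ?_
  refine IsIntegral.add ?_ ?_
  · split_ifs
    · exact (dscpe_isIntegral_natCast e).mul (dscpe_isIntegral_zpow (dscpe_isIntegral_zeta M) _)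
    · exact isIntegral_zero
  · split_ifs
    · exact (dscpe_isIntegral_natCast e).mul (dscpe_isIntegral_zpow (dscpe_isIntegral_zeta M) _)
    · exact isIntegral_zero

theorem dscpe_isIntegral_S (M : ℕ) [NeZero M] (r s : ℤ) (m : ℤ) :
    IsIntegral ℚ ((dscpS M r s).coeff m) := by
  rw [dscpS, PowerSeries.coeff_coe]
  by_cases h : m < 0
  · rw [if_pos h]
    exact isIntegral_zero
  · rw [if_neg h, PowerSeries.coeff_mk]
    by_cases h0 : m.natAbs = 0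
    · rw [if_pos h0]
      by_cases hr : (r : ZMod M) = 0
      · rw [if_pos hr]
        exact dscpe_isIntegral_E M s
      · rw [if_neg hr]
        exact isIntegral_zero
    · rw [if_neg h0]
      exact dscpe_isIntegral_coeff M r s _

/-- L3 (c): `(X_a - X_b)∣g` has an expansion in `e(τ/M)`, explicit after `q ↦ q^D`, with algebraic
coefficients. -/
theorem dscp_X_sub_slash_general_hasCuspExp (M : ℕ) [NeZero M] (g : SL(2, ℤ)) :
    ∃ (g' : SL(2, ℤ)) (A D : ℕ) (B : ℤ) (ζ : ℂˣ) (_ : NeZero A) (_ : NeZero D),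
      A * D = M ∧ 0 ≤ B ∧ B < D ∧ (ζ : ℂ) = exp (2 * π * I * B / ((D * M : ℕ) : ℂ)) ∧
      utGL M 0 1 * Matrix.SpecialLinearGroup.mapGL ℝ g
        = Matrix.SpecialLinearGroup.mapGL ℝ g' * utGL A B D ∧
      ∀ {a b : ZMod M}, a ≠ 0 → b ≠ 0 → ∃ S : LaurentSeries ℂ,
        HasCuspExp M ((dscpX M a - dscpX M b) ∣[(2 : ℤ)] g) S ∧
        qExpand ℂ D S = HahnSeries.C (((D : ℂ) ^ 2)⁻¹) * qExpand ℂ A (rotLaurent ζ
          (dscpS M ((a.val : ℤ) * g' 0 0) ((a.val : ℤ) * g' 0 1) -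
            dscpS M ((b.val : ℤ) * g' 0 0) ((b.val : ℤ) * g' 0 1))) ∧
        ∀ n : ℤ, IsIntegral ℚ (S.coeff n) := by
  obtain ⟨g', A, D, B, ζ, iA, iD, hAD, hB0, hBD, hζ, hdec, hexp⟩ :=
    dscp_L_sub_slash_hasCuspExp M g
  refine ⟨g', A, D, B, ζ, iA, iD, hAD, hB0, hBD, hζ, hdec, ?_⟩
  intro a b ha hb
  have hadm : ∀ {c : ZMod M}, c ≠ 0 → DscpAdm M (c.val : ℤ) 0 := by
    intro c hc h
    apply hc
    have := h.1
    simpa using this
  have h1 := hexp (hadm ha) (hadm hb)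
  simp only [zero_mul, add_zero] at h1
  rw [mul_comm D M] at h1
  obtain ⟨S, hS, hSe⟩ := dscpe_descend (h := M) (k := D) h1 (fun τ => ModularGroup.T ^ (M : ℤ) • τ)
    (fun τ => by
      rw [modular_T_zpow_smul, UpperHalfPlane.coe_vadd]
      push_cast
      ring)
    (fun τ => dscpe_X_periodic M g ha hb τ)
  refine ⟨S, hS, hSe.symm, ?_⟩
  intro n
  have h2 : S.coeff n = (qExpand ℂ D S).coeff ((D : ℤ) * n) := (qExpand_coeff_mul D S n).symm
  rw [h2, ← hSe, HahnSeries.C_mul_eq_smul, HahnSeries.coeff_smul, smul_eq_mul]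
  have hD : IsIntegral ℚ (((D : ℂ) ^ 2)⁻¹) := ((dscpe_isIntegral_natCast D).pow 2).inv
  refine hD.mul ?_
  by_cases hdvd : (A : ℤ) ∣ (D : ℤ) * n
  · obtain ⟨m, hm⟩ := hdvd
    rw [hm, qExpand_coeff_mul, rotLaurent_coeff, HahnSeries.coeff_sub]
    have hζi : IsIntegral ℚ (ζ : ℂ) := by
      rw [hζ]
      exact dscpe_isIntegral_exp B (D * M) (Nat.mul_ne_zero (NeZero.ne D) (NeZero.ne M))
    exact (dscpe_isIntegral_zpow hζi m).mul
      ((dscpe_isIntegral_S M _ _ m).sub (dscpe_isIntegral_S M _ _ m))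
  · rw [qExpand_coeff_of_not_dvd A _ hdvd]
    exact isIntegral_zero

end Fermat.Agent.DS
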