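import Fermat.Agent.DS.C.P.Slash

/-!
# Program DS, package (C), row C1a, leaf L2 : all `SL₂(ℤ)`-translates of the level `M` Fricke family.

`dscp_L_sub_slash_general` VERBATIM vs origin/helper22 4b304ad `Fermat/Agent/DS/C/P/Spec.lean`.
For every `g ∈ SL₂(ℤ)` : `diag(M,1) · g = g' · [A, B; 0, D]` with `g' ∈ SL₂(ℤ)`, `A D = M`, `0 ≤ B < D`
(Hermite decomposition `unstab_exists_hermite_decomp` / `utGL_mul_mapGL` of `S23/UNStab.lean`, plus a
translation to reduce `B`), and then the weight two law `dscp_F_sub_smul` (leaf P3, `P/Smul.lean`) gives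
`(L_v - L_w)∣g (τ) = D⁻² (F_{(v/M) g'} - F_{(w/M) g'}) ((Aτ + B)/D)`.
Private prefix `dscpc_`.
-/

set_option autoImplicit false

open UpperHalfPlane hiding I
open Complex CongruenceSubgroup Fermat.Agent.S24
open scoped Real MatrixGroups ModularForm Manifold

noncomputable section

namespace Fermat.Agent.DS

/-- translation `[1, k; 0, 1]`. -/
def dscpc_T (k : ℤ) : SL(2, ℤ) := ⟨!![1, k; 0, 1], by rw [Matrix.det_fin_two_of]; ring⟩

open Fermat.Agent.S23 in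
theorem dscpc_T_mul_utGL {A D : ℕ} (hA : A ≠ 0) (hD : D ≠ 0) (B k : ℤ) :
    Matrix.SpecialLinearGroup.mapGL ℝ (dscpc_T k) * utGL A B D = utGL A (B + k * D) D := by
  apply Matrix.GeneralLinearGroup.ext
  intro i j
  simp only [Matrix.GeneralLinearGroup.coe_mul, val_utGL hA hD, Matrix.mul_apply,
    Fin.sum_univ_two, unstab_mapGL_apply]
  fin_cases i <;> fin_cases j <;> simp [dscpc_T]

open Fermat.Agent.S23 in
/-- Hermite decomposition with reduced `B`. -/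
theorem dscpc_exists_decomp (M : ℕ) (hM : M ≠ 0) (g : SL(2, ℤ)) :
    ∃ (g' : SL(2, ℤ)) (A D : ℕ) (B : ℤ), A ≠ 0 ∧ D ≠ 0 ∧ A * D = M ∧ 0 ≤ B ∧ B < D ∧
      utGL M 0 1 * Matrix.SpecialLinearGroup.mapGL ℝ g
        = Matrix.SpecialLinearGroup.mapGL ℝ g' * utGL A B D := by
  by_cases hg : (M : ℤ) ∣ g 1 0
  · obtain ⟨c', hc⟩ := hg
    exact ⟨unstab_conjSL M g c' hc, M, 1, 0, hM, one_ne_zero, by simp, le_refl _, by simp,
      utGL_mul_mapGL M hM g c' hc⟩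
  · obtain ⟨A, D, b', β, hA, hD, hAD, -, h⟩ := unstab_exists_hermite_decomp M hM g hg
    have hDpos : (0 : ℤ) < D := by exact_mod_cast Nat.pos_of_ne_zero hD
    refine ⟨β * dscpc_T (b' / D), A, D, b' % D, hA, hD, hAD, Int.emod_nonneg _ hDpos.ne',
      Int.emod_lt_of_pos _ hDpos, ?_⟩
    rw [h, map_mul, mul_assoc, dscpc_T_mul_utGL hA hD]
    congr 2
    linarith [Int.emod_add_mul_ediv b' (D : ℤ), mul_comm (b' / (D : ℤ)) (D : ℤ)]

theorem dscpc_nonInt (M : ℕ) [NeZero M] {r s : ℤ} (h : DscpAdm M r s) :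
    DscpNonInt ((r : ℝ) / M) ((s : ℝ) / M) := by
  rintro ⟨⟨m, hm⟩, ⟨n, hn⟩⟩
  have hM : (M : ℝ) ≠ 0 := by exact_mod_cast NeZero.ne M
  apply h
  constructor
  · have h1 : (r : ℝ) = ((M * m : ℤ) : ℝ) := by
      rw [div_eq_iff hM] at hm; push_cast; rw [hm]; ring
    have h2 : r = M * m := by exact_mod_cast h1
    rw [h2]; simp
  · have h1 : (s : ℝ) = ((M * n : ℤ) : ℝ) := by
      rw [div_eq_iff hM] at hn; push_cast; rw [hn]; ring
    have h2 : s = M * n := by exact_mod_cast h1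
    rw [h2]; simp

theorem dscpc_σ_mapGL (g : SL(2, ℤ)) :
    UpperHalfPlane.σ (Matrix.SpecialLinearGroup.mapGL ℝ g) = .refl ℝ ℂ := by
  rw [UpperHalfPlane.σ, if_pos (by simp)]

open Fermat.Agent.S23 in
/-- the computation behind L2, for a GIVEN decomposition `diag(M,1) · g = g' · [A, B; 0, D]`. -/
theorem dscpc_slash_of_decomp (M : ℕ) [NeZero M] (g g' : SL(2, ℤ)) {A D : ℕ} (B : ℤ) (hA : A ≠ 0)
    (hD : D ≠ 0)
    (hdec : utGL M 0 1 * Matrix.SpecialLinearGroup.mapGL ℝ g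
      = Matrix.SpecialLinearGroup.mapGL ℝ g' * utGL A B D)
    {r s r' s' : ℤ} (h : DscpAdm M r s) (h' : DscpAdm M r' s') (τ : ℍ) :
    ((dscpL M r s - dscpL M r' s') ∣[(2 : ℤ)] g) τ = ((D : ℂ) ^ 2)⁻¹ *
      (dscpF ((r : ℝ) / M * (g' 0 0 : ℝ) + (s : ℝ) / M * (g' 1 0 : ℝ))
          ((r : ℝ) / M * (g' 0 1 : ℝ) + (s : ℝ) / M * (g' 1 1 : ℝ))
          (utGL A B D • τ) -
        dscpF ((r' : ℝ) / M * (g' 0 0 : ℝ) + (s' : ℝ) / M * (g' 1 0 : ℝ))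
          ((r' : ℝ) / M * (g' 0 1 : ℝ) + (s' : ℝ) / M * (g' 1 1 : ℝ))
          (utGL A B D • τ)) := by
  have hM : M ≠ 0 := NeZero.ne M
  set z : ℍ := utGL A B D • τ with hz
  -- the point
  have hpt : dscpMul M (g • τ) = g' • z := by
    change utGL M 0 1 • (Matrix.SpecialLinearGroup.mapGL ℝ g • τ)
      = Matrix.SpecialLinearGroup.mapGL ℝ g' • (utGL A B D • τ)
    rw [← mul_smul, ← mul_smul, hdec]
  -- the automorphy factor
  have hden : denom (Matrix.SpecialLinearGroup.mapGL ℝ g) τ = (D : ℂ) * denom g' z := by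
    have h1 := denom_cocycle_σ (utGL M 0 1) (Matrix.SpecialLinearGroup.mapGL ℝ g) τ
    have h2 := denom_cocycle_σ (Matrix.SpecialLinearGroup.mapGL ℝ g') (utGL A B D) τ
    rw [hdec] at h1
    rw [h1, σ_utGL hA hD, denom_utGL hA hD] at h2
    rw [dscpc_σ_mapGL, denom_utGL hM one_ne_zero] at h2
    simp only [ContinuousAlgEquiv.refl_apply, Nat.cast_one, one_mul] at h2
    rw [h2, mul_comm]
    rfl
  have hDC : (D : ℂ) ≠ 0 := by exact_mod_cast hD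
  have hdz : denom g' z ≠ 0 := denom_ne_zero _ z
  rw [ModularForm.SL_slash_apply]
  change (dscpL M r s (g • τ) - dscpL M r' s' (g • τ)) * _ = _
  rw [show dscpL M r s (g • τ) = dscpF ((r : ℝ) / M) ((s : ℝ) / M) (g' • z) by
      rw [dscpL, hpt],
    show dscpL M r' s' (g • τ) = dscpF ((r' : ℝ) / M) ((s' : ℝ) / M) (g' • z) by
      rw [dscpL, hpt],
    dscp_F_sub_smul g' (dscpc_nonInt M h) (dscpc_nonInt M h') z]
  change _ * denom (Matrix.SpecialLinearGroup.mapGL ℝ g) τ ^ (-(2 : ℤ)) = _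
  rw [hden, zpow_neg, mul_zpow]
  have e1 : ((D : ℂ)) ^ (2 : ℤ) = (D : ℂ) ^ 2 := by norm_cast
  have e2 : (denom g' z) ^ (2 : ℤ) = (denom g' z) ^ 2 := by norm_cast
  rw [e1, e2]
  field_simp

/-- for every `g ∈ SL₂(ℤ)` : `M · gτ = g' · (Aτ + B)/D` with `g' ∈ SL₂(ℤ)`, `A D = M`, and
`(L_v - L_w)∣g (τ) = D⁻² (F_{(v/M) g'} - F_{(w/M) g'}) ((Aτ + B)/D)`. -/
theorem dscp_L_sub_slash_general (M : ℕ) [NeZero M] (g : SL(2, ℤ)) :
    ∃ (g' : SL(2, ℤ)) (A D : ℕ) (B : ℤ), A * D = M ∧ 0 ≤ B ∧ B < D ∧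
      ∀ {r s r' s' : ℤ}, DscpAdm M r s → DscpAdm M r' s' → ∀ τ : ℍ,
        ((dscpL M r s - dscpL M r' s') ∣[(2 : ℤ)] g) τ = ((D : ℂ) ^ 2)⁻¹ *
          (dscpF ((r : ℝ) / M * (g' 0 0 : ℝ) + (s : ℝ) / M * (g' 1 0 : ℝ))
              ((r : ℝ) / M * (g' 0 1 : ℝ) + (s : ℝ) / M * (g' 1 1 : ℝ))
              (Fermat.Agent.S23.utGL A B D • τ) -
            dscpF ((r' : ℝ) / M * (g' 0 0 : ℝ) + (s' : ℝ) / M * (g' 1 0 : ℝ))
              ((r' : ℝ) / M * (g' 0 1 : ℝ) + (s' : ℝ) / M * (g' 1 1 : ℝ))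
              (Fermat.Agent.S23.utGL A B D • τ)) := by
  obtain ⟨g', A, D, B, hA, hD, hAD, hB0, hBD, hdec⟩ := dscpc_exists_decomp M (NeZero.ne M) g
  exact ⟨g', A, D, B, hAD, hB0, hBD, fun h h' τ =>
    dscpc_slash_of_decomp M g g' B hA hD hdec h h' τ⟩

end Fermat.Agent.DS
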