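import Fermat.Agent.DS.C.P.Series
import Fermat.Agent.DS.Wt1.ZDiff

/-!
# DS-C row C1a, leaf P2 : `∂_w Z(w, z) = 4π² P(w, z)`
-/

set_option autoImplicit false

open UpperHalfPlane hiding I
open Complex Filter Topology
open scoped Real MatrixGroups ModularForm

noncomputable section

namespace Fermat.Agent.DS

theorem dscp_exp_ne_one {x : ℂ} (hx : ∀ n : ℤ, x ≠ n) : cexp (2 * π * I * x) ≠ 1 := by
  intro h
  rw [Complex.exp_eq_one_iff] at h
  obtain ⟨n, hn⟩ := h
  apply hx n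
  have h2 : (2 * π * I : ℂ) ≠ 0 := by
    simp [Real.pi_ne_zero, I_ne_zero]
  have : (2 * π * I : ℂ) * x = (2 * π * I) * n := by rw [hn]; ring
  exact mul_left_cancel₀ h2 this

theorem dscp_pcot_hasDerivAt {x : ℂ} (hx : ∀ n : ℤ, x ≠ n) :
    HasDerivAt dsw_pcot (4 * (π : ℂ) ^ 2 * dscpE x) x := by
  have h1 : cexp (2 * π * I * x) ≠ 1 := dscp_exp_ne_one hx
  have hcont : ContinuousAt (fun y : ℂ => cexp (2 * π * I * y)) x := by fun_prop
  have hev : ∀ᶠ y in 𝓝 x, cexp (2 * π * I * y) ≠ 1 :=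
    hcont.eventually_ne h1
  have heq : dsw_pcot =ᶠ[𝓝 x] fun y =>
      -(π * I) - 2 * π * I * (cexp (2 * π * I * y) / (1 - cexp (2 * π * I * y))) := by
    filter_upwards [hev] with y hy
    exact dsw_pcot_eq_exp y hy
  apply HasDerivAt.congr_of_eventuallyEq _ heq
  have ht : HasDerivAt (fun y : ℂ => cexp (2 * π * I * y))
      (cexp (2 * π * I * x) * (2 * π * I)) x := by
    have := (hasDerivAt_id x).const_mul (2 * π * I : ℂ)
    have h2 := HasDerivAt.cexp this
    simpa using h2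
  have h1' : 1 - cexp (2 * π * I * x) ≠ 0 := sub_ne_zero.mpr (Ne.symm h1)
  have hq := ht.div ((hasDerivAt_const x (1 : ℂ)).sub ht) h1'
  have h3 := (hq.const_mul (2 * π * I : ℂ)).const_sub (-(π * I) : ℂ)
  refine HasDerivAt.congr_deriv (f := fun y : ℂ =>
      -(π * I) - 2 * π * I * (cexp (2 * π * I * y) / (1 - cexp (2 * π * I * y)))) h3 ?_
  simp only [Pi.sub_apply]
  unfold dscpE
  set t := cexp (2 * π * I * x) with ht
  have h1'' : 1 - t ≠ 0 := h1'
  field_simp
  ring_nf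
  rw [I_sq]
  ring

theorem dscp_Zterm_hasDerivAt (z : ℍ) (m : ℕ) {w : ℂ} (hw : |w.im| < z.im) :
    HasDerivAt (fun w ↦ dsw_Zterm w z m)
      (4 * (π : ℂ) ^ 2 * (dscpE (w + ((m : ℂ) + 1) * z) + dscpE (w - ((m : ℂ) + 1) * z))) w := by
  have hy := z.im_pos
  have hm : (0 : ℝ) ≤ m := Nat.cast_nonneg m
  have hmy : z.im ≤ ((m : ℝ) + 1) * z.im := by nlinarith
  have habs := abs_lt.mp hw
  have him1 : (w + ((m : ℂ) + 1) * z).im = w.im + ((m : ℝ) + 1) * z.im := by
    simp [Complex.add_im, Complex.mul_im]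
  have him2 : (w - ((m : ℂ) + 1) * z).im = w.im - ((m : ℝ) + 1) * z.im := by
    simp [Complex.sub_im, Complex.mul_im]
  have d1 : HasDerivAt dsw_pcot (4 * (π : ℂ) ^ 2 * dscpE (w + ((m : ℂ) + 1) * z))
      (w + ((m : ℂ) + 1) * z) := by
    apply dscp_pcot_hasDerivAt
    intro n hn
    have := congrArg Complex.im hn
    rw [him1] at this
    simp at this
    linarith [habs.1]
  have d2 : HasDerivAt dsw_pcot (4 * (π : ℂ) ^ 2 * dscpE (w - ((m : ℂ) + 1) * z))
      (w - ((m : ℂ) + 1) * z) := by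
    apply dscp_pcot_hasDerivAt
    intro n hn
    have := congrArg Complex.im hn
    rw [him2] at this
    simp at this
    linarith [habs.2]
  unfold dsw_Zterm
  have e1 : HasDerivAt (fun w : ℂ ↦ w + ((m : ℂ) + 1) * z) 1 w := (hasDerivAt_id w).add_const _
  have e2 : HasDerivAt (fun w : ℂ ↦ w - ((m : ℂ) + 1) * z) 1 w := (hasDerivAt_id w).sub_const _
  have c1 := HasDerivAt.comp w d1 e1
  have c2 := HasDerivAt.comp w d2 e2
  have := c1.add c2
  refine HasDerivAt.congr_deriv this ?_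
  ring

/-- the derivative on the strip `|im w| < im z`. -/
theorem dscp_R_hasDerivAt (z : ℍ) {w : ℂ} (hw : |w.im| < z.im) :
    HasDerivAt (fun w ↦ dsw_R w z) (4 * (π : ℂ) ^ 2 * (dscpP w z - dscpE w)) w := by
  set B : ℝ := (|w.im| + z.im) / 2 with hBdef
  have hB : B < z.im := by rw [hBdef]; linarith
  have hmem : w ∈ {w : ℂ | |w.im| < B} := by
    show |w.im| < B
    rw [hBdef]; linarith
  have hgeo : Summable (fun m : ℕ ↦
      2 * (2 * π / (1 - Real.exp (-(2 * π * (z.im - B))))) * Real.exp (2 * π * B) *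
        Real.exp (-(2 * π * z.im)) ^ (m + 1)) := by
    apply Summable.mul_left
    have := summable_geometric_of_lt_one (Real.exp_pos _).le (dsw_exp_lt_one z)
    exact (summable_nat_add_iff 1).mpr this
  have hsum := hasSum_deriv_of_summable_norm (F := fun (m : ℕ) (w : ℂ) => dsw_Zterm w z m)
    hgeo
    (fun m w hw' => (dsw_Zterm_differentiableAt z m (lt_trans hw' hB)).differentiableWithinAt)
    (dsw_strip_isOpen B)
    (fun m w hw' => dsw_Zterm_norm_le_strip w z m hB (le_of_lt hw')) hmem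
  have hderiv : ∀ m : ℕ, deriv (fun w ↦ dsw_Zterm w z m) w =
      4 * (π : ℂ) ^ 2 * (dscpE (w + ((m : ℂ) + 1) * z) + dscpE (w - ((m : ℂ) + 1) * z)) :=
    fun m => (dscp_Zterm_hasDerivAt z m hw).deriv
  simp only [hderiv] at hsum
  have h2 := (dscp_P_eq_nat w z).mul_left (4 * (π : ℂ) ^ 2)
  have h3 := hsum.unique h2
  have hd : DifferentiableAt ℂ (fun w ↦ dsw_R w z) w := dsw_R_differentiableAt z hw
  have := hd.hasDerivAt
  unfold dsw_R at this ⊢
  rw [h3] at this
  exact this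

theorem dscp_Z_hasDerivAt_strip (z : ℍ) {w : ℂ} (hw : |w.im| < z.im) (hn : ∀ n : ℤ, w ≠ n) :
    HasDerivAt (fun w ↦ dsw_Z w z) (4 * (π : ℂ) ^ 2 * dscpP w z) w := by
  have : (fun w ↦ dsw_Z w z) = fun w ↦ dsw_pcot w + dsw_R w z := by
    funext w; rfl
  rw [this]
  have h := (dscp_pcot_hasDerivAt hn).add (dscp_R_hasDerivAt z hw)
  refine HasDerivAt.congr_deriv h ?_
  ring

theorem dscp_Z_hasDerivAt (z : ℍ) {w : ℂ} (hw : ∀ m n : ℤ, w ≠ m * z + n) :
    HasDerivAt (fun w => dsw_Z w z) (4 * (π : ℂ) ^ 2 * dscpP w z) w := by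
  have hy := z.im_pos
  set k : ℤ := round (w.im / z.im) with hk
  have hround : |w.im / z.im - k| ≤ 1 / 2 := abs_sub_round _
  have hstrip : |(w - (k : ℂ) * z).im| < z.im := by
    have e : (w - (k : ℂ) * z).im = (w.im / z.im - k) * z.im := by
      simp [Complex.sub_im, Complex.mul_im]
      field_simp
    rw [e, abs_mul, abs_of_pos hy]
    nlinarith
  have hnint : ∀ n : ℤ, w - (k : ℂ) * z ≠ n := by
    intro n hn
    apply hw k n
    rw [← hn]
    ring
  have hfun : (fun w ↦ dsw_Z w z) = fun w ↦ dsw_Z (w - (k : ℂ) * z) z - 2 * π * I * k := by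
    funext w'
    have := dsw_Z_add_int_mul (w' - (k : ℂ) * z) z k
    rw [sub_add_cancel] at this
    exact this
  rw [hfun]
  apply HasDerivAt.sub_const
  have h1 := dscp_Z_hasDerivAt_strip z hstrip hnint
  have e2 : HasDerivAt (fun w : ℂ ↦ w - (k : ℂ) * z) 1 w := (hasDerivAt_id w).sub_const _
  have c := HasDerivAt.comp w h1 e2
  have hP : dscpP (w - (k : ℂ) * z) z = dscpP w z := by
    have := dscp_P_add_mul (w - (k : ℂ) * z) z k
    rw [sub_add_cancel] at this
    exact this.symm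
  rw [hP, mul_one] at c
  exact c

end Fermat.Agent.DS
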