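import Fermat.Agent.DS.C.P.Smul
import Fermat.Agent.DS.Wt1.FHol

/-!
# DS-C row C1a, leaf P4 : the Fricke functions `F_{α,β}` are holomorphic on `ℍ`
-/

set_option autoImplicit false

open UpperHalfPlane hiding I
open Complex Filter Topology
open scoped Real MatrixGroups ModularForm Manifold

noncomputable section

namespace Fermat.Agent.DS

theorem dscp_E_differentiableAt {x : ℂ} (hx : ∀ n : ℤ, x ≠ n) : DifferentiableAt ℂ dscpE x := by
  have h1 : cexp (2 * π * I * x) ≠ 1 := dscp_exp_ne_one hx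
  have h1' : 1 - cexp (2 * π * I * x) ≠ 0 := sub_ne_zero.mpr (Ne.symm h1)
  unfold dscpE
  apply DifferentiableAt.div
  · fun_prop
  · fun_prop
  · exact pow_ne_zero 2 h1'

theorem dscp_ne_int_of_im_ne {x : ℂ} (hx : x.im ≠ 0) (n : ℤ) : x ≠ n := by
  intro h
  apply hx
  rw [h]
  simp

/-- the `m`-th pair of terms, as a function of a complex variable. -/
def dscpT (α β : ℝ) (m : ℕ) (z : ℂ) : ℂ :=
  dscpE ((α : ℂ) * z + β + ((m : ℂ) + 1) * z) + dscpE ((α : ℂ) * z + β - ((m : ℂ) + 1) * z)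

/-- `F_{α,β}` as a function of a complex variable. -/
def dscpFc (α β : ℝ) (z : ℂ) : ℂ := dscpE ((α : ℂ) * z + β) + ∑' m : ℕ, dscpT α β m z

theorem dscp_F_eq_Fc (α β : ℝ) (z : ℍ) : dscpF α β z = dscpFc α β (z : ℂ) := by
  unfold dscpF dscpFc
  have h := (dscp_P_eq_nat ((α : ℂ) * z + β) z).tsum_eq
  unfold dscpT
  rw [h]
  ring

theorem dscp_T_norm_le {α : ℝ} (β : ℝ) (hα0 : 0 ≤ α) (hα1 : α < 1) {δ : ℝ} (hδ : 0 < δ)
    {z : ℂ} (hz : δ ≤ z.im) (m : ℕ) :
    ‖dscpT α β m z‖ ≤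
      2 / (1 - Real.exp (-(2 * π * ((1 - α) * δ)))) ^ 2 *
        Real.exp (-(2 * π * ((1 - α) * δ))) ^ (m + 1) := by
  have hpi := Real.pi_pos
  set ε := (1 - α) * δ with hε
  have hεpos : 0 < ε := mul_pos (by linarith) hδ
  have hm : (0 : ℝ) ≤ m := Nat.cast_nonneg m
  have hlt : Real.exp (-(2 * π * ε)) < 1 := dsw_rho_lt_one hεpos
  have hpos : 0 < 1 - Real.exp (-(2 * π * ε)) := by linarith
  have him1 := dsw_T_im1 α β m z
  have him2 := dsw_T_im2 α β m z
  have hzpos : 0 < z.im := lt_of_lt_of_le hδ hz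
  -- lower bounds for the imaginary parts
  have hb1 : ((m : ℝ) + 1) * ε ≤ |((α : ℂ) * z + β + ((m : ℂ) + 1) * z).im| := by
    rw [him1, abs_of_nonneg (by positivity)]
    have : ((m : ℝ) + 1) * ε ≤ ((m : ℝ) + 1) * δ := by
      apply mul_le_mul_of_nonneg_left _ (by positivity)
      rw [hε]; nlinarith
    nlinarith
  have hb2 : ((m : ℝ) + 1) * ε ≤ |((α : ℂ) * z + β - ((m : ℂ) + 1) * z).im| := by
    rw [him2, abs_neg, abs_of_nonneg (by nlinarith)]
    have h1 : ((m : ℝ) + 1) * (1 - α) ≤ (m : ℝ) + 1 - α := by nlinarith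
    calc ((m : ℝ) + 1) * ε = (((m : ℝ) + 1) * (1 - α)) * δ := by rw [hε]; ring
      _ ≤ ((m : ℝ) + 1 - α) * δ := mul_le_mul_of_nonneg_right h1 hδ.le
      _ ≤ ((m : ℝ) + 1 - α) * z.im := mul_le_mul_of_nonneg_left hz (by linarith)
  have hε1 : ε ≤ ((m : ℝ) + 1) * ε := by nlinarith
  have key : ∀ x : ℂ, ((m : ℝ) + 1) * ε ≤ |x.im| →
      ‖dscpE x‖ ≤ 1 / (1 - Real.exp (-(2 * π * ε))) ^ 2 * Real.exp (-(2 * π * ε)) ^ (m + 1) := by
    intro x hx
    have h := dscp_E_norm_le hεpos (hε1.trans hx)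
    refine h.trans ?_
    rw [div_mul_eq_mul_div, one_mul]
    apply div_le_div_of_nonneg_right _ (pow_pos hpos 2).le
    rw [← Real.exp_nat_mul]
    apply Real.exp_le_exp.mpr
    push_cast
    nlinarith
  unfold dscpT
  refine (norm_add_le _ _).trans ?_
  have h1 := key _ hb1
  have h2 := key _ hb2
  have : 2 / (1 - Real.exp (-(2 * π * ε))) ^ 2 * Real.exp (-(2 * π * ε)) ^ (m + 1) =
      1 / (1 - Real.exp (-(2 * π * ε))) ^ 2 * Real.exp (-(2 * π * ε)) ^ (m + 1) +
        1 / (1 - Real.exp (-(2 * π * ε))) ^ 2 * Real.exp (-(2 * π * ε)) ^ (m + 1) := by ring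
  rw [this]
  exact add_le_add h1 h2

theorem dscp_T_differentiableAt (α β : ℝ) (hα0 : 0 ≤ α) (hα1 : α < 1) (m : ℕ) {z : ℂ}
    (hz : 0 < z.im) : DifferentiableAt ℂ (dscpT α β m) z := by
  have hm : (0 : ℝ) ≤ m := Nat.cast_nonneg m
  have d1 : DifferentiableAt ℂ dscpE ((α : ℂ) * z + β + ((m : ℂ) + 1) * z) := by
    apply dscp_E_differentiableAt
    apply dscp_ne_int_of_im_ne
    rw [dsw_T_im1]
    have : 0 < (α + m + 1) * z.im := by positivity
    exact this.ne'
  have d2 : DifferentiableAt ℂ dscpE ((α : ℂ) * z + β - ((m : ℂ) + 1) * z) := by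
    apply dscp_E_differentiableAt
    apply dscp_ne_int_of_im_ne
    rw [dsw_T_im2]
    have : 0 < ((m : ℝ) + 1 - α) * z.im := mul_pos (by linarith) hz
    linarith
  unfold dscpT
  apply DifferentiableAt.add
  · exact DifferentiableAt.comp (f := fun z : ℂ ↦ (α : ℂ) * z + β + ((m : ℂ) + 1) * z) z d1
      (by fun_prop)
  · exact DifferentiableAt.comp (f := fun z : ℂ ↦ (α : ℂ) * z + β - ((m : ℂ) + 1) * z) z d2
      (by fun_prop)

theorem dscp_first_differentiableAt {α β : ℝ} (hα0 : 0 ≤ α) (h : DscpNonInt α β) {z : ℂ}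
    (hz : 0 < z.im) : DifferentiableAt ℂ (fun z : ℂ ↦ dscpE ((α : ℂ) * z + β)) z := by
  rcases eq_or_lt_of_le hα0 with h0 | h0
  · subst h0
    simp
  · have d : DifferentiableAt ℂ dscpE ((α : ℂ) * z + β) := by
      apply dscp_E_differentiableAt
      apply dscp_ne_int_of_im_ne
      have : ((α : ℂ) * z + β).im = α * z.im := by simp [Complex.add_im, Complex.mul_im]
      rw [this]
      exact (mul_pos h0 hz).ne'
    exact DifferentiableAt.comp (f := fun z : ℂ ↦ (α : ℂ) * z + β) z d (by fun_prop)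

theorem dscp_Fc_differentiableOn {α β : ℝ} (hα0 : 0 ≤ α) (hα1 : α < 1) (h : DscpNonInt α β)
    {δ : ℝ} (hδ : 0 < δ) : DifferentiableOn ℂ (dscpFc α β) {z : ℂ | δ < z.im} := by
  have hopen : IsOpen {z : ℂ | δ < z.im} := isOpen_lt continuous_const Complex.continuous_im
  have hεpos : 0 < (1 - α) * δ := mul_pos (by linarith) hδ
  have hsum : DifferentiableOn ℂ (fun z : ℂ ↦ ∑' m : ℕ, dscpT α β m z) {z : ℂ | δ < z.im} := by
    apply differentiableOn_tsum_of_summable_norm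
      (dsw_geo_summable (2 / (1 - Real.exp (-(2 * π * ((1 - α) * δ)))) ^ 2) _ (Real.exp_pos _).le
        (dsw_rho_lt_one hεpos))
    · intro m z hz
      exact (dscp_T_differentiableAt α β hα0 hα1 m (lt_trans hδ hz)).differentiableWithinAt
    · exact hopen
    · intro m z hz
      exact dscp_T_norm_le β hα0 hα1 hδ (le_of_lt hz) m
  have hfirst : DifferentiableOn ℂ (fun z : ℂ ↦ dscpE ((α : ℂ) * z + β)) {z : ℂ | δ < z.im} :=
    fun z hz ↦ (dscp_first_differentiableAt hα0 h (lt_trans hδ hz)).differentiableWithinAt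
  unfold dscpFc
  exact hfirst.add hsum

theorem dscp_F_mdiff_aux {α β : ℝ} (hα0 : 0 ≤ α) (hα1 : α < 1) (h : DscpNonInt α β) :
    MDiff (dscpF α β) := by
  rw [UpperHalfPlane.mdifferentiable_iff]
  intro z hz
  have hz' : 0 < z.im := hz
  have hopen : IsOpen {w : ℂ | z.im / 2 < w.im} := isOpen_lt continuous_const Complex.continuous_im
  have hmem : z ∈ {w : ℂ | z.im / 2 < w.im} := by
    show z.im / 2 < z.im
    linarith
  have hd := (dscp_Fc_differentiableOn hα0 hα1 h (half_pos hz')).differentiableAt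
    (hopen.mem_nhds hmem)
  apply DifferentiableAt.differentiableWithinAt
  refine hd.congr_of_eventuallyEq ?_
  filter_upwards [isOpen_upperHalfPlaneSet.mem_nhds hz] with w hw
  simp only [Function.comp_apply]
  rw [dscp_F_eq_Fc, ofComplex_apply_of_im_pos hw]

theorem dscp_F_fract (α β : ℝ) : dscpF α β = dscpF (Int.fract α) β := by
  have := dscp_F_add_int (Int.fract α) β ⌊α⌋ 0
  simp only [Int.cast_zero, add_zero] at this
  rw [← this, Int.fract_add_floor]

theorem dscp_nonInt_fract {α β : ℝ} (h : DscpNonInt α β) : DscpNonInt (Int.fract α) β := by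
  rintro ⟨⟨m, hm⟩, hn⟩
  apply h
  refine ⟨⟨⌊α⌋ + m, ?_⟩, hn⟩
  have := Int.fract_add_floor α
  push_cast
  linarith

theorem dscp_F_mdiff {α β : ℝ} (h : DscpNonInt α β) : MDiff (dscpF α β) := by
  rw [dscp_F_fract]
  exact dscp_F_mdiff_aux (Int.fract_nonneg α) (Int.fract_lt_one α) (dscp_nonInt_fract h)

end Fermat.Agent.DS
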