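import Fermat.Agent.DS.C.P.Defs

/-!
# Program DS, package (C), row C1a, leaf Q1 : the double series of the Fricke functions `F_{α,β}`

`dscp_F_hasSum` (`0 < α < 1`) and `dscp_F_zero_hasSum` (`α = 0`), VERBATIM as in `DS/C/P/Spec.lean`.
Everything comes from the geometric-type identity `∑ (n+1) x^(n+1) = x / (1 - x)²` and one
product-summability lemma (`dscpq_row`).
-/

set_option autoImplicit false

open UpperHalfPlane hiding I
open Complex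
open scoped Real MatrixGroups ModularForm

noncomputable section

namespace Fermat.Agent.DS

/-- `E` is even. -/
theorem dscpq_E_neg (w : ℂ) : dscpE (-w) = dscpE w := by
  unfold dscpE
  have h : exp (2 * π * I * -w) = (exp (2 * π * I * w))⁻¹ := by
    rw [mul_neg, Complex.exp_neg]
  rw [h]
  have h0 : exp (2 * π * I * w) ≠ 0 := Complex.exp_ne_zero _
  by_cases h1 : exp (2 * π * I * w) = 1
  · rw [h1]; simp
  · have h2 : (1 - exp (2 * π * I * w)) ≠ 0 := sub_ne_zero.mpr (Ne.symm h1)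
    have h3 : (1 - (exp (2 * π * I * w))⁻¹) ≠ 0 := by
      intro h
      apply h1
      have := sub_eq_zero.mp h
      rw [eq_comm, inv_eq_one] at this
      exact this
    field_simp
    ring

/-- `E(w) = ∑_{n ≥ 1} n e(w)^n` for `‖e(w)‖ < 1`. -/
theorem dscpq_E_hasSum {x : ℂ} (hx : ‖x‖ < 1) :
    HasSum (fun n : ℕ => ((n : ℂ) + 1) * x ^ (n + 1)) (x / (1 - x) ^ 2) := by
  have h := hasSum_coe_mul_geometric_of_norm_lt_one hx
  have h2 := (hasSum_nat_add_iff' 1).mpr h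
  simp only [Finset.range_one, Finset.sum_singleton, Nat.cast_zero, zero_mul, sub_zero] at h2
  exact_mod_cast h2

/-- the rows `m ≥ 0` of the lattice sum, expanded: for `δ > 0`,
`∑_{m ≥ 0} E((m + δ) z + β) = ∑_{n ≥ 1, m ≥ 0} n e(nβ) e(n (m + δ) z)`. -/
theorem dscpq_row (β : ℝ) {δ : ℝ} (hδ : 0 < δ) (z : ℍ) :
    HasSum (fun p : ℕ × ℕ => ((p.1 : ℂ) + 1) *
        (exp (2 * π * I * ((p.1 : ℂ) + 1) * β) *
          exp (2 * π * I * ((p.1 : ℂ) + 1) * ((p.2 : ℂ) + δ) * z)))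
      (∑' m : ℕ, dscpE (((m : ℂ) + δ) * z + β)) ∧
    Summable (fun m : ℕ => dscpE (((m : ℂ) + δ) * z + β)) := by
  have hzim : 0 < (z : ℂ).im := z.im_pos
  have hpi := Real.pi_pos
  -- the basic quantities
  set a : ℕ → ℂ := fun m => exp (2 * π * I * (((m : ℂ) + δ) * z + β)) with ha
  set κ : ℝ := Real.exp (-(2 * π * (δ * (z : ℂ).im))) with hκ
  set ρ : ℝ := Real.exp (-(2 * π * (z : ℂ).im)) with hρ
  have hκ0 : 0 < κ := Real.exp_pos _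
  have hρ0 : 0 < ρ := Real.exp_pos _
  have hκ1 : κ < 1 := by
    rw [hκ, Real.exp_lt_one_iff]
    have : 0 < δ * (z : ℂ).im := mul_pos hδ hzim
    nlinarith
  have hρ1 : ρ < 1 := by
    rw [hρ, Real.exp_lt_one_iff]
    nlinarith
  have hnorm : ∀ m : ℕ, ‖a m‖ = κ * ρ ^ m := by
    intro m
    rw [ha, dsw_norm_exp, hκ, hρ, ← Real.exp_nat_mul, ← Real.exp_add]
    congr 1
    have him : ((((m : ℂ) + δ) * z + β : ℂ)).im = ((m : ℝ) + δ) * (z : ℂ).im := by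
      simp [Complex.add_im, Complex.mul_im]
    rw [him]
    ring
  have hnorm_le : ∀ m : ℕ, ‖a m‖ ≤ κ := by
    intro m
    rw [hnorm]
    have : ρ ^ m ≤ 1 := pow_le_one₀ hρ0.le hρ1.le
    nlinarith
  have hnorm_lt : ∀ m : ℕ, ‖a m‖ < 1 := fun m => (hnorm_le m).trans_lt hκ1
  -- rewrite the terms as `(n+1) (a m)^(n+1)`
  have hterm : ∀ p : ℕ × ℕ, ((p.1 : ℂ) + 1) *
      (exp (2 * π * I * ((p.1 : ℂ) + 1) * β) *
        exp (2 * π * I * ((p.1 : ℂ) + 1) * ((p.2 : ℂ) + δ) * z)) =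
      ((p.1 : ℂ) + 1) * a p.2 ^ (p.1 + 1) := by
    intro p
    rw [ha]
    simp only
    rw [← Complex.exp_add, ← Complex.exp_nat_mul]
    congr 2
    push_cast
    ring
  simp only [hterm]
  -- the swapped family is summable
  set f' : ℕ × ℕ → ℂ := fun p => ((p.2 : ℂ) + 1) * a p.1 ^ (p.2 + 1) with hf'
  have hmaj : Summable (fun p : ℕ × ℕ => ρ ^ p.1 * (((p.2 : ℝ) + 1) * κ ^ (p.2 + 1))) := by
    apply Summable.mul_of_nonneg (f := fun m : ℕ => ρ ^ m)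
      (g := fun n : ℕ => ((n : ℝ) + 1) * κ ^ (n + 1)) (summable_geometric_of_lt_one hρ0.le hρ1)
    · have h1 : ‖(κ : ℝ)‖ < 1 := by rwa [Real.norm_of_nonneg hκ0.le]
      have h2 := (hasSum_coe_mul_geometric_of_norm_lt_one h1).summable
      have h3 := (summable_nat_add_iff 1).mpr h2
      refine h3.congr (fun n => ?_)
      push_cast
      ring
    · intro m; positivity
    · intro n; positivity
  have hsum' : Summable f' := by
    refine Summable.of_norm_bounded hmaj (fun p => ?_)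
    rw [hf']
    simp only
    rw [norm_mul, norm_pow, hnorm]
    have h1 : ‖((p.2 : ℂ) + 1)‖ = (p.2 : ℝ) + 1 := by
      have : ((p.2 : ℂ) + 1) = (((p.2 : ℝ) + 1 : ℝ) : ℂ) := by push_cast; ring
      rw [this, Complex.norm_real, Real.norm_of_nonneg (by positivity)]
    rw [h1, mul_pow, ← pow_mul]
    have h2 : ρ ^ (p.1 * (p.2 + 1)) ≤ ρ ^ p.1 := by
      apply pow_le_pow_of_le_one hρ0.le hρ1.le
      nlinarith [Nat.zero_le p.1, Nat.zero_le p.2]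
    have h3 : 0 ≤ ((p.2 : ℝ) + 1) * κ ^ (p.2 + 1) := by positivity
    calc ((p.2 : ℝ) + 1) * (κ ^ (p.2 + 1) * ρ ^ (p.1 * (p.2 + 1)))
        = ρ ^ (p.1 * (p.2 + 1)) * (((p.2 : ℝ) + 1) * κ ^ (p.2 + 1)) := by ring
      _ ≤ ρ ^ p.1 * (((p.2 : ℝ) + 1) * κ ^ (p.2 + 1)) :=
        mul_le_mul_of_nonneg_right h2 h3
  -- fibre sums
  have hfib : ∀ m : ℕ, HasSum (fun n : ℕ => f' (m, n)) (dscpE (((m : ℂ) + δ) * z + β)) := by
    intro m
    have := dscpq_E_hasSum (hnorm_lt m)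
    exact this
  have hE := hsum'.hasSum.prod_fiberwise hfib
  refine ⟨?_, hE.summable⟩
  rw [hE.tsum_eq]
  have hswap : (fun p : ℕ × ℕ => ((p.1 : ℂ) + 1) * a p.2 ^ (p.1 + 1)) =
      f' ∘ (Equiv.prodComm ℕ ℕ) := by
    funext p
    rfl
  rw [hswap]
  exact (Equiv.hasSum_iff (Equiv.prodComm ℕ ℕ)).mpr hsum'.hasSum

/-- the lattice sum split into its rows `m ≥ 0` and `m < 0` (`0 < α < 1`). -/
theorem dscpq_F_eq {α : ℝ} (β : ℝ) (hα0 : 0 < α) (hα1 : α < 1) (z : ℍ) :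
    dscpF α β z = (∑' m : ℕ, dscpE (((m : ℂ) + α) * z + β)) +
      ∑' m : ℕ, dscpE (((m : ℂ) + ((1 - α : ℝ) : ℂ)) * z + ((-β : ℝ) : ℂ)) := by
  obtain ⟨-, hAs⟩ := dscpq_row β hα0 z
  obtain ⟨-, hBs⟩ := dscpq_row (-β) (sub_pos.mpr hα1) z
  -- the sum over `ℤ`
  set f : ℤ → ℂ := fun m => dscpE ((α : ℂ) * z + β + m * z) with hf
  have hf1 : ∀ m : ℕ, f m = dscpE (((m : ℂ) + α) * z + β) := by
    intro m
    rw [hf]
    simp only [Int.cast_natCast]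
    congr 1
    ring
  have hf2 : ∀ m : ℕ, f (-((m : ℤ) + 1)) = dscpE (((m : ℂ) + ((1 - α : ℝ) : ℂ)) * z + ((-β : ℝ) : ℂ)) := by
    intro m
    rw [hf]
    simp only
    rw [← dscpq_E_neg]
    congr 1
    push_cast
    ring
  have hZ : HasSum f ((∑' m : ℕ, dscpE (((m : ℂ) + α) * z + β)) +
      ∑' m : ℕ, dscpE (((m : ℂ) + ((1 - α : ℝ) : ℂ)) * z + ((-β : ℝ) : ℂ))) := by
    apply HasSum.of_nat_of_neg_add_one
    · simp only [hf1]
      exact hAs.hasSum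
    · simp only [hf2]
      exact hBs.hasSum
  rw [← hZ.tsum_eq]
  rfl

/-- the lattice sum split into its rows `m > 0` and `m < 0` (`α = 0`). -/
theorem dscpq_F_zero_eq (β : ℝ) (z : ℍ) :
    dscpF 0 β z - dscpE β = (∑' m : ℕ, dscpE (((m : ℂ) + ((1 : ℝ) : ℂ)) * z + β)) +
      ∑' m : ℕ, dscpE (((m : ℂ) + ((1 : ℝ) : ℂ)) * z + ((-β : ℝ) : ℂ)) := by
  obtain ⟨-, hAs⟩ := dscpq_row β one_pos z
  obtain ⟨-, hBs⟩ := dscpq_row (-β) one_pos z
  set f : ℤ → ℂ := fun m => dscpE (((0 : ℝ) : ℂ) * z + β + m * z) with hf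
  have hf0 : f 0 = dscpE β := by
    rw [hf]
    simp
  have hf1 : ∀ m : ℕ, f ((m : ℤ) + 1) = dscpE (((m : ℂ) + ((1 : ℝ) : ℂ)) * z + β) := by
    intro m
    rw [hf]
    simp only
    congr 1
    push_cast
    ring
  have hf2 : ∀ m : ℕ, f (-((m : ℤ) + 1)) =
      dscpE (((m : ℂ) + ((1 : ℝ) : ℂ)) * z + ((-β : ℝ) : ℂ)) := by
    intro m
    rw [hf]
    simp only
    rw [← dscpq_E_neg]
    congr 1
    push_cast
    ring
  have hnat : HasSum (fun m : ℕ => f m)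
      (dscpE β + ∑' m : ℕ, dscpE (((m : ℂ) + ((1 : ℝ) : ℂ)) * z + β)) := by
    have h1 : HasSum (fun m : ℕ => f ((m + 1 : ℕ) : ℤ))
        (∑' m : ℕ, dscpE (((m : ℂ) + ((1 : ℝ) : ℂ)) * z + β)) := by
      have : (fun m : ℕ => f ((m + 1 : ℕ) : ℤ)) =
          fun m : ℕ => dscpE (((m : ℂ) + ((1 : ℝ) : ℂ)) * z + β) := by
        funext m
        rw [← hf1 m]
        congr 1
      rw [this]
      exact hAs.hasSum
    have h2 := HasSum.zero_add (f := fun m : ℕ => f (m : ℤ)) h1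
    simp only [Nat.cast_zero, hf0] at h2
    exact h2
  have hZ : HasSum f ((dscpE β + ∑' m : ℕ, dscpE (((m : ℂ) + ((1 : ℝ) : ℂ)) * z + β)) +
      ∑' m : ℕ, dscpE (((m : ℂ) + ((1 : ℝ) : ℂ)) * z + ((-β : ℝ) : ℂ))) := by
    apply HasSum.of_nat_of_neg_add_one hnat
    simp only [hf2]
    exact hBs.hasSum
  have : dscpF 0 β z = ∑' m : ℤ, f m := rfl
  rw [this, hZ.tsum_eq]
  ring

/-! ## Q1 : the double series of `F_{α,β}` (`0 ≤ α < 1`) -/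

/-- `0 < α < 1` : `F_{α,β}(z) = ∑_{n ≥ 1} ∑_{m ≥ 0} n (e(nβ) e(n(m+α)z) + e(-nβ) e(n(m+1-α)z))`. -/
theorem dscp_F_hasSum {α : ℝ} (β : ℝ) (hα0 : 0 < α) (hα1 : α < 1) (z : ℍ) :
    HasSum (fun p : ℕ × ℕ => ((p.1 : ℂ) + 1) *
      (exp (2 * π * I * ((p.1 : ℂ) + 1) * β) * exp (2 * π * I * ((p.1 : ℂ) + 1) * ((p.2 : ℂ) + α) * z) +
        exp (-(2 * π * I * ((p.1 : ℂ) + 1) * β)) *
          exp (2 * π * I * ((p.1 : ℂ) + 1) * ((p.2 : ℂ) + 1 - α) * z)))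
      (dscpF α β z) := by
  obtain ⟨hA, -⟩ := dscpq_row β hα0 z
  obtain ⟨hB, -⟩ := dscpq_row (-β) (sub_pos.mpr hα1) z
  rw [dscpq_F_eq β hα0 hα1 z]
  have hsum := hA.add hB
  have hfun : (fun p : ℕ × ℕ => ((p.1 : ℂ) + 1) *
      (exp (2 * π * I * ((p.1 : ℂ) + 1) * β) * exp (2 * π * I * ((p.1 : ℂ) + 1) * ((p.2 : ℂ) + α) * z) +
        exp (-(2 * π * I * ((p.1 : ℂ) + 1) * β)) *
          exp (2 * π * I * ((p.1 : ℂ) + 1) * ((p.2 : ℂ) + 1 - α) * z))) =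
      fun p : ℕ × ℕ => ((p.1 : ℂ) + 1) *
        (exp (2 * π * I * ((p.1 : ℂ) + 1) * β) *
          exp (2 * π * I * ((p.1 : ℂ) + 1) * ((p.2 : ℂ) + α) * z)) +
        ((p.1 : ℂ) + 1) * (exp (2 * π * I * ((p.1 : ℂ) + 1) * ((-β : ℝ) : ℂ)) *
          exp (2 * π * I * ((p.1 : ℂ) + 1) * ((p.2 : ℂ) + ((1 - α : ℝ) : ℂ)) * z)) := by
    funext p
    have h1 : exp (-(2 * π * I * ((p.1 : ℂ) + 1) * β)) =
        exp (2 * π * I * ((p.1 : ℂ) + 1) * ((-β : ℝ) : ℂ)) := by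
      congr 1
      push_cast
      ring
    have h2 : exp (2 * π * I * ((p.1 : ℂ) + 1) * ((p.2 : ℂ) + 1 - α) * z) =
        exp (2 * π * I * ((p.1 : ℂ) + 1) * ((p.2 : ℂ) + ((1 - α : ℝ) : ℂ)) * z) := by
      congr 1
      push_cast
      ring
    rw [h1, h2, mul_add]
  rw [hfun]
  exact hsum

/-- `α = 0`, `β ∉ ℤ` : `F_{0,β}(z) = E(β) + ∑_{n ≥ 1} ∑_{m ≥ 1} n (e(nβ) + e(-nβ)) e(n m z)`. -/
theorem dscp_F_zero_hasSum {β : ℝ} (hβ : ∀ n : ℤ, β ≠ n) (z : ℍ) :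
    HasSum (fun p : ℕ × ℕ => ((p.1 : ℂ) + 1) *
      (exp (2 * π * I * ((p.1 : ℂ) + 1) * β) + exp (-(2 * π * I * ((p.1 : ℂ) + 1) * β))) *
        exp (2 * π * I * ((p.1 : ℂ) + 1) * ((p.2 : ℂ) + 1) * z))
      (dscpF 0 β z - dscpE β) := by
  obtain ⟨hA, -⟩ := dscpq_row β one_pos z
  obtain ⟨hB, -⟩ := dscpq_row (-β) one_pos z
  rw [dscpq_F_zero_eq β z]
  have hsum := hA.add hB
  have hfun : (fun p : ℕ × ℕ => ((p.1 : ℂ) + 1) *
      (exp (2 * π * I * ((p.1 : ℂ) + 1) * β) + exp (-(2 * π * I * ((p.1 : ℂ) + 1) * β))) *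
        exp (2 * π * I * ((p.1 : ℂ) + 1) * ((p.2 : ℂ) + 1) * z)) =
      fun p : ℕ × ℕ => ((p.1 : ℂ) + 1) *
        (exp (2 * π * I * ((p.1 : ℂ) + 1) * β) *
          exp (2 * π * I * ((p.1 : ℂ) + 1) * ((p.2 : ℂ) + ((1 : ℝ) : ℂ)) * z)) +
        ((p.1 : ℂ) + 1) * (exp (2 * π * I * ((p.1 : ℂ) + 1) * ((-β : ℝ) : ℂ)) *
          exp (2 * π * I * ((p.1 : ℂ) + 1) * ((p.2 : ℂ) + ((1 : ℝ) : ℂ)) * z)) := by
    funext p
    have h1 : exp (-(2 * π * I * ((p.1 : ℂ) + 1) * β)) =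
        exp (2 * π * I * ((p.1 : ℂ) + 1) * ((-β : ℝ) : ℂ)) := by
      congr 1
      push_cast
      ring
    rw [h1, Complex.ofReal_one]
    ring
  rw [hfun]
  exact hsum

end Fermat.Agent.DS
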