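import Fermat.Agent.DS.C.P.Defs

/-!
# DS-C row C1a, leaf P1 : the series `P(w, z) = ∑_{m ∈ ℤ} E(w + m z)`
summability, periodicity, evenness.
-/

set_option autoImplicit false

open UpperHalfPlane hiding I
open Complex Filter Topology
open scoped Real MatrixGroups ModularForm

noncomputable section

namespace Fermat.Agent.DS

theorem dscp_E_add_int (w : ℂ) (n : ℤ) : dscpE (w + n) = dscpE w := by
  unfold dscpE
  rw [dsw_exp_add_int]

theorem dscp_E_neg (w : ℂ) : dscpE (-w) = dscpE w := by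
  unfold dscpE
  have h : cexp (2 * π * I * -w) = (cexp (2 * π * I * w))⁻¹ := by
    rw [mul_neg, Complex.exp_neg]
  rw [h]
  have ht : cexp (2 * π * I * w) ≠ 0 := Complex.exp_ne_zero _
  by_cases h1 : cexp (2 * π * I * w) = 1
  · rw [h1]; simp
  · have h2 : 1 - cexp (2 * π * I * w) ≠ 0 := sub_ne_zero.mpr (Ne.symm h1)
    have h3 : 1 - (cexp (2 * π * I * w))⁻¹ ≠ 0 := by
      intro h
      apply h1
      have := sub_eq_zero.mp h
      rw [eq_comm, inv_eq_one] at this
      exact this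
    field_simp
    ring

/-- the basic bound: `‖E(x)‖ ≤ exp(-2π |im x|) / (1 - exp(-2π δ))²` for `|im x| ≥ δ > 0`. -/
theorem dscp_E_norm_le_pos {x : ℂ} {δ : ℝ} (hδ : 0 < δ) (hx : δ ≤ x.im) :
    ‖dscpE x‖ ≤ Real.exp (-(2 * π * x.im)) / (1 - Real.exp (-(2 * π * δ))) ^ 2 := by
  have hpi := Real.pi_pos
  set t := cexp (2 * π * I * x) with ht
  have hnt : ‖t‖ = Real.exp (-(2 * π * x.im)) := dsw_norm_exp x
  have hle : Real.exp (-(2 * π * x.im)) ≤ Real.exp (-(2 * π * δ)) := by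
    apply Real.exp_le_exp.mpr
    nlinarith
  have hlt : Real.exp (-(2 * π * δ)) < 1 := by
    rw [Real.exp_lt_one_iff]
    nlinarith
  have hpos : 0 < 1 - Real.exp (-(2 * π * δ)) := by linarith
  have h1 : 1 - Real.exp (-(2 * π * δ)) ≤ ‖1 - t‖ := by
    have := norm_sub_norm_le (1 : ℂ) t
    rw [norm_one, hnt] at this
    linarith
  unfold dscpE
  rw [← ht, norm_div, norm_pow, hnt]
  apply div_le_div_of_nonneg_left (Real.exp_pos _).le (pow_pos hpos 2)
  exact pow_le_pow_left₀ hpos.le h1 2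

theorem dscp_E_norm_le {x : ℂ} {δ : ℝ} (hδ : 0 < δ) (hx : δ ≤ |x.im|) :
    ‖dscpE x‖ ≤ Real.exp (-(2 * π * |x.im|)) / (1 - Real.exp (-(2 * π * δ))) ^ 2 := by
  rcases le_total 0 x.im with h | h
  · rw [abs_of_nonneg h] at hx ⊢
    exact dscp_E_norm_le_pos hδ hx
  · rw [abs_of_nonpos h] at hx ⊢
    have := dscp_E_norm_le_pos (x := -x) hδ (by simpa using hx)
    rw [dscp_E_neg] at this
    simpa using this

/-- the geometric bound on the `m`-th term, `m` large. -/
theorem dscp_E_term_norm_le (w : ℂ) (z : ℍ) (m : ℕ) (hm : |w.im| + z.im ≤ (m : ℝ) * z.im) :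
    ‖dscpE (w + (m : ℂ) * z)‖ ≤
      Real.exp (2 * π * |w.im|) / (1 - Real.exp (-(2 * π * z.im))) ^ 2 *
        Real.exp (-(2 * π * z.im)) ^ m := by
  have hy := z.im_pos
  have hpi := Real.pi_pos
  have him : (w + (m : ℂ) * z).im = w.im + m * z.im := by
    simp [Complex.add_im, Complex.mul_im]
  have habs : -|w.im| ≤ w.im := neg_abs_le _
  have h3 : z.im ≤ (w + (m : ℂ) * z).im := by rw [him]; linarith
  have hb := dscp_E_norm_le_pos hy h3
  refine hb.trans ?_
  have hlt : Real.exp (-(2 * π * z.im)) < 1 := dsw_exp_lt_one z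
  have hpos : 0 < 1 - Real.exp (-(2 * π * z.im)) := by linarith
  rw [div_mul_eq_mul_div]
  apply div_le_div_of_nonneg_right _ (pow_pos hpos 2).le
  rw [← Real.exp_nat_mul, ← Real.exp_add]
  apply Real.exp_le_exp.mpr
  rw [him]
  nlinarith

theorem dscp_eventually_le (w : ℂ) (z : ℍ) :
    ∀ᶠ m : ℕ in atTop, |w.im| + z.im ≤ (m : ℝ) * z.im := by
  have hy := z.im_pos
  obtain ⟨M, hM⟩ := exists_nat_gt ((|w.im| + z.im) / z.im)
  filter_upwards [eventually_ge_atTop M] with m hm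
  have : (M : ℝ) ≤ m := by exact_mod_cast hm
  have h1 : (|w.im| + z.im) / z.im ≤ (m : ℝ) := by linarith
  rwa [div_le_iff₀ hy] at h1

theorem dscp_E_summable_nat (w : ℂ) (z : ℍ) : Summable fun m : ℕ => dscpE (w + (m : ℂ) * z) := by
  have hgeo : Summable (fun m : ℕ ↦
      Real.exp (2 * π * |w.im|) / (1 - Real.exp (-(2 * π * z.im))) ^ 2 *
        Real.exp (-(2 * π * z.im)) ^ m) := by
    apply Summable.mul_left
    exact summable_geometric_of_lt_one (Real.exp_pos _).le (dsw_exp_lt_one z)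
  apply Summable.of_norm_bounded_eventually_nat hgeo
  filter_upwards [dscp_eventually_le w z] with m hm
  exact dscp_E_term_norm_le w z m hm

theorem dscp_E_summable (w : ℂ) (z : ℍ) : Summable fun m : ℤ => dscpE (w + m * z) := by
  apply Summable.of_nat_of_neg_add_one
  · simpa using dscp_E_summable_nat w z
  · have h := dscp_E_summable_nat (-w) z
    have h2 := (summable_nat_add_iff 1).mpr h
    refine h2.congr (fun m => ?_)
    rw [← dscp_E_neg]
    congr 1
    push_cast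
    ring

theorem dscp_P_hasSum (w : ℂ) (z : ℍ) : HasSum (fun m : ℤ => dscpE (w + m * z)) (dscpP w z) :=
  (dscp_E_summable w z).hasSum

theorem dscp_P_add_int (w : ℂ) (z : ℍ) (n : ℤ) : dscpP (w + n) z = dscpP w z := by
  unfold dscpP
  apply tsum_congr
  intro m
  rw [show w + (n : ℂ) + (m : ℂ) * z = (w + (m : ℂ) * z) + n by ring, dscp_E_add_int]

theorem dscp_P_add_mul (w : ℂ) (z : ℍ) (m : ℤ) : dscpP (w + m * z) z = dscpP w z := by
  unfold dscpP
  rw [← (Equiv.addRight m).tsum_eq (fun k : ℤ => dscpE (w + k * z))]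
  apply tsum_congr
  intro k
  simp only [Equiv.coe_addRight]
  congr 1
  push_cast
  ring

theorem dscp_P_neg (w : ℂ) (z : ℍ) : dscpP (-w) z = dscpP w z := by
  unfold dscpP
  rw [← (Equiv.neg ℤ).tsum_eq (fun k : ℤ => dscpE (w + k * z))]
  apply tsum_congr
  intro k
  simp only [Equiv.neg_apply]
  rw [← dscp_E_neg]
  congr 1
  push_cast
  ring

/-- splitting of the `ℤ`-sum: `P = E(w) + ∑_{m ≥ 0} (E(w + (m+1) z) + E(w - (m+1) z))`. -/
theorem dscp_P_eq_nat (w : ℂ) (z : ℍ) :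
    HasSum (fun m : ℕ => dscpE (w + ((m : ℂ) + 1) * z) + dscpE (w - ((m : ℂ) + 1) * z))
      (dscpP w z - dscpE w) := by
  have h1 : HasSum (fun m : ℕ => dscpE (w + (m : ℂ) * z)) (∑' m : ℕ, dscpE (w + (m : ℂ) * z)) :=
    (dscp_E_summable_nat w z).hasSum
  have h1' : HasSum (fun m : ℕ => dscpE (w + ((m : ℂ) + 1) * z))
      ((∑' m : ℕ, dscpE (w + (m : ℂ) * z)) - dscpE w) := by
    have := (hasSum_nat_add_iff' 1).mpr h1
    simpa using this
  have hs2 : Summable fun m : ℕ => dscpE (w - ((m : ℂ) + 1) * z) := by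
    have h := dscp_E_summable_nat (-w) z
    have h2 := (summable_nat_add_iff 1).mpr h
    refine h2.congr (fun m => ?_)
    rw [← dscp_E_neg]
    congr 1
    push_cast
    ring
  have h2 := hs2.hasSum
  have h3 : HasSum (fun m : ℤ => dscpE (w + m * z))
      ((∑' m : ℕ, dscpE (w + (m : ℂ) * z)) + ∑' m : ℕ, dscpE (w - ((m : ℂ) + 1) * z)) := by
    apply HasSum.of_nat_of_neg_add_one
    · simpa using h1
    · have e : (fun n : ℕ => dscpE (w + ((-((n : ℤ) + 1) : ℤ) : ℂ) * z)) =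
          fun m : ℕ => dscpE (w - ((m : ℂ) + 1) * z) := by
        funext n
        congr 1
        push_cast
        ring
      rw [e]
      exact h2
  have h4 : dscpP w z =
      (∑' m : ℕ, dscpE (w + (m : ℂ) * z)) + ∑' m : ℕ, dscpE (w - ((m : ℂ) + 1) * z) :=
    h3.tsum_eq
  have h5 := h1'.add h2
  rw [h4]
  convert h5 using 1
  ring

end Fermat.Agent.DS
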