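import Fermat.Agent.DS.C.P.Deriv

/-!
# DS-C row C1a, leaf P3 : the transformation law of `P` and the weight two law of the differences
of the Fricke functions `F_{α,β}`
-/

set_option autoImplicit false

open UpperHalfPlane hiding I
open Complex Filter Topology
open scoped Real MatrixGroups ModularForm

noncomputable section

namespace Fermat.Agent.DS

theorem dscp_notMem_lattice (z : ℍ) {w : ℂ} (hw : ∀ m n : ℤ, w ≠ m * z + n) :
    w ∉ (dsw_pair z).lattice := by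
  intro h
  obtain ⟨m, n, e⟩ := (dsw_mem_lattice z w).mp h
  exact hw m n e

/-- `P(w / (cz+d), γ z) = (cz+d)² P(w, z) + i c (cz+d) / (2π)`. -/
theorem dscp_P_smul (γ : SL(2, ℤ)) (z : ℍ) {w : ℂ} (hw : ∀ m n : ℤ, w ≠ m * z + n) :
    dscpP (w / denom γ z) (γ • z) =
      denom γ z ^ 2 * dscpP w z + I * (γ 1 0 : ℂ) * denom γ z / (2 * π) := by
  have hj : denom γ z ≠ 0 := denom_ne_zero γ z
  have hpi : (π : ℂ) ≠ 0 := by exact_mod_cast Real.pi_ne_zero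
  have hw' := dscp_notMem_lattice z hw
  -- derivative of the left side
  have h1 : HasDerivAt (fun w : ℂ => dsw_Z (w / denom γ z) (γ • z))
      (4 * (π : ℂ) ^ 2 * dscpP (w / denom γ z) (γ • z) * (1 / denom γ z)) w := by
    have hd := dscp_Z_hasDerivAt (γ • z) (w := w / denom γ z) (dsw_div_notMem γ z hw')
    have hdiv : HasDerivAt (fun w : ℂ => w / denom γ z) (1 / denom γ z) w :=
      (hasDerivAt_id w).div_const _
    exact HasDerivAt.comp w hd hdiv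
  -- derivative of the right side
  have h2 : HasDerivAt (fun w : ℂ => denom γ z * dsw_Z w z + 2 * π * I * (γ 1 0 : ℂ) * w)
      (denom γ z * (4 * (π : ℂ) ^ 2 * dscpP w z) + 2 * π * I * (γ 1 0 : ℂ)) w := by
    have hd := (dscp_Z_hasDerivAt z hw).const_mul (denom γ z)
    have hl : HasDerivAt (fun w : ℂ => 2 * π * I * (γ 1 0 : ℂ) * w) (2 * π * I * (γ 1 0 : ℂ)) w := by
      simpa using (hasDerivAt_id w).const_mul (2 * π * I * (γ 1 0 : ℂ))
    exact hd.add hl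
  have hfun : (fun w : ℂ => dsw_Z (w / denom γ z) (γ • z)) =
      fun w : ℂ => denom γ z * dsw_Z w z + 2 * π * I * (γ 1 0 : ℂ) * w := by
    funext w
    exact dsw_Z_smul γ z w
  rw [hfun] at h1
  have h3 := h1.unique h2
  have h4 : dscpP (w / denom γ z) (γ • z) =
      (denom γ z * (4 * (π : ℂ) ^ 2 * dscpP w z) + 2 * π * I * (γ 1 0 : ℂ)) * denom γ z /
        (4 * (π : ℂ) ^ 2) := by
    rw [← h3]
    field_simp
  rw [h4]
  field_simp
  ring_nf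

theorem dscp_F_add_int (α β : ℝ) (m n : ℤ) : dscpF (α + m) (β + n) = dscpF α β := by
  funext z
  unfold dscpF
  have e : ((α + m : ℝ) : ℂ) * z + ((β + n : ℝ) : ℂ) =
      (((α : ℂ) * z + β) + (n : ℂ)) + (m : ℂ) * z := by
    push_cast; ring
  rw [e, dscp_P_add_mul, dscp_P_add_int]

theorem dscp_F_neg (α β : ℝ) : dscpF (-α) (-β) = dscpF α β := by
  funext z
  unfold dscpF
  have e : ((-α : ℝ) : ℂ) * z + ((-β : ℝ) : ℂ) = -((α : ℂ) * z + β) := by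
    push_cast; ring
  rw [e, dscp_P_neg]

/-- `α z + β` is not a lattice point if `(α, β) ∉ ℤ²`. -/
theorem dscp_nonInt_ne {α β : ℝ} (h : DscpNonInt α β) (z : ℍ) (m n : ℤ) :
    (α : ℂ) * z + β ≠ m * z + n := by
  intro e
  apply h
  have him := congrArg Complex.im e
  have hre := congrArg Complex.re e
  simp [Complex.add_im, Complex.mul_im] at him
  have hy : z.im ≠ 0 := z.im_pos.ne'
  have hα : α = m := by
    rcases him with h1 | h1
    · exact h1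
    · exact absurd h1 hy
  refine ⟨⟨m, hα⟩, ⟨n, ?_⟩⟩
  simp [Complex.add_re, Complex.mul_re, hα] at hre
  exact hre

/-- `SL₂(ℤ)` preserves `ℝ² ∖ ℤ²`. -/
theorem dscp_nonInt_smul (γ : SL(2, ℤ)) {α β : ℝ} (h : DscpNonInt α β) :
    DscpNonInt (α * (γ 0 0 : ℝ) + β * (γ 1 0 : ℝ)) (α * (γ 0 1 : ℝ) + β * (γ 1 1 : ℝ)) := by
  rintro ⟨⟨m, hm⟩, ⟨n, hn⟩⟩
  apply h
  have hdet : (γ 0 0 : ℝ) * (γ 1 1 : ℝ) - (γ 0 1 : ℝ) * (γ 1 0 : ℝ) = 1 := by
    have := γ.det_coe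
    rw [Matrix.det_fin_two] at this
    exact_mod_cast this
  refine ⟨⟨m * γ 1 1 - n * γ 1 0, ?_⟩, ⟨n * γ 0 0 - m * γ 0 1, ?_⟩⟩
  · push_cast
    rw [← hm, ← hn]
    linear_combination (-α) * hdet
  · push_cast
    rw [← hm, ← hn]
    linear_combination (-β) * hdet

/-- `α (γ z) + β = ((α a + β c) z + (α b + β d)) / (c z + d)`. -/
theorem dscp_point_smul (γ : SL(2, ℤ)) (α β : ℝ) (z : ℍ) :
    (α : ℂ) * ((γ • z : ℍ) : ℂ) + β =
      (((α * (γ 0 0 : ℝ) + β * (γ 1 0 : ℝ) : ℝ) : ℂ) * z +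
        ((α * (γ 0 1 : ℝ) + β * (γ 1 1 : ℝ) : ℝ) : ℂ)) / denom γ z := by
  have hj : denom γ z ≠ 0 := denom_ne_zero γ z
  rw [dsw_smul_coe]
  field_simp
  rw [dsw_denom]
  push_cast
  ring

theorem dscp_F_smul (γ : SL(2, ℤ)) {α β : ℝ} (h : DscpNonInt α β) (z : ℍ) :
    dscpF α β (γ • z) = denom γ z ^ 2 *
      dscpF (α * (γ 0 0 : ℝ) + β * (γ 1 0 : ℝ)) (α * (γ 0 1 : ℝ) + β * (γ 1 1 : ℝ)) z +
        I * (γ 1 0 : ℂ) * denom γ z / (2 * π) := by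
  unfold dscpF
  rw [dscp_point_smul, dscp_P_smul γ z (dscp_nonInt_ne (dscp_nonInt_smul γ h) z)]

/-- the weight two law of the differences: `(F_v - F_w)(γ z) = (cz+d)² (F_{vγ} - F_{wγ})(z)`. -/
theorem dscp_F_sub_smul (γ : SL(2, ℤ)) {α β α' β' : ℝ} (h : DscpNonInt α β) (h' : DscpNonInt α' β')
    (z : ℍ) :
    dscpF α β (γ • z) - dscpF α' β' (γ • z) = denom γ z ^ 2 *
      (dscpF (α * (γ 0 0 : ℝ) + β * (γ 1 0 : ℝ)) (α * (γ 0 1 : ℝ) + β * (γ 1 1 : ℝ)) z -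
        dscpF (α' * (γ 0 0 : ℝ) + β' * (γ 1 0 : ℝ)) (α' * (γ 0 1 : ℝ) + β' * (γ 1 1 : ℝ)) z) := by
  rw [dscp_F_smul γ h, dscp_F_smul γ h']
  ring

theorem dscp_F_sub_slash (γ : SL(2, ℤ)) {α β α' β' : ℝ} (h : DscpNonInt α β)
    (h' : DscpNonInt α' β') :
    (dscpF α β - dscpF α' β') ∣[(2 : ℤ)] γ =
      dscpF (α * (γ 0 0 : ℝ) + β * (γ 1 0 : ℝ)) (α * (γ 0 1 : ℝ) + β * (γ 1 1 : ℝ)) -
        dscpF (α' * (γ 0 0 : ℝ) + β' * (γ 1 0 : ℝ)) (α' * (γ 0 1 : ℝ) + β' * (γ 1 1 : ℝ)) := by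
  funext z
  have hj : denom γ z ≠ 0 := denom_ne_zero γ z
  rw [ModularForm.SL_slash_apply, Pi.sub_apply, Pi.sub_apply, dscp_F_sub_smul γ h h']
  rw [zpow_neg]
  have : denom γ z ^ (2 : ℤ) = denom γ z ^ 2 := by norm_cast
  rw [this]
  field_simp

end Fermat.Agent.DS
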